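import Fermat.Agent.S56.Loc.Min

/-!
# S56 / Gen / Two : at the prime `2` every lift with unramified determinant is unipotent on inertia

`p ≥ 5`, `rbar|_{I_2}` unipotent.  Let `r₁ : GQ →* M2 k[ε]` be a continuous lift of `rbar` with `det r₁ = 1` on `I_2`.
* `r₁ (I_2)` has exponent `p²` (prime to `2`), so it is cyclic, generated by `u = r₁ σ₀` (`tame_cyclic`), and
  `Φ u Φ⁻¹ = u²` (`tame_frob`).
* `t = tr u = tr u² = t² - 2` (Cayley-Hamilton, `det u = 1`), `t ≡ 2`, so `3 (t - 2) = 0` and `t = 2`.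
* hence `charpoly (u ^ n) = (X - 1)²`.

Consequence: the local condition `Lur` at `2` is automatic (matrix form of [LOC-MIN]).
-/

set_option autoImplicit false

open ExtCitation Polynomial

namespace Fermat.Agent.S56

open CFT (levS levAll decomp Z1 B1 Qb)

namespace GenTwo

/-- `(u - 1)² = 0` ⟹ `u ^ n = 1 + n (u - 1)` -/
theorem pow_eq_of_sq_zero {R : Type} [CommRing R] (u : M2 R) (h1 : (u - 1) ^ 2 = 0) (n : ℕ) :
    u ^ n = 1 + n • (u - 1) := by
  obtain ⟨N, hN⟩ : ∃ N, N = u - 1 := ⟨_, rfl⟩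
  have e : u = 1 + N := by rw [hN]; abel
  rw [← hN] at h1 ⊢
  rw [e]
  induction n with
  | zero => simp
  | succ n ih =>
    rw [pow_succ, ih, add_mul, one_mul, mul_add, mul_one, smul_mul_assoc, ← sq, h1, smul_zero,
      add_zero, add_smul, one_smul]
    abel

theorem pow_p_eq_one_of_sq_zero {R : Type} [CommRing R] {p : ℕ} (hp0 : ((p : ℕ) : R) = 0) (u : M2 R)
    (h1 : (u - 1) ^ 2 = 0) : u ^ p = 1 := by
  rw [pow_eq_of_sq_zero u h1 p, ← Nat.cast_smul_eq_nsmul R, hp0, zero_smul, add_zero]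

theorem sq_zero_of_charpoly {R : Type} [CommRing R] (u : M2 R) (hchar : u.charpoly = (X - 1) ^ 2) :
    (u - 1) ^ 2 = 0 := by
  have := Matrix.aeval_self_charpoly u
  rw [hchar] at this
  simpa using this

theorem charpoly_of_trace_det {R : Type} [CommRing R] [Nontrivial R] (u : M2 R) (ht : u.trace = 2)
    (hd : u.det = 1) : u.charpoly = (X - 1) ^ 2 := by
  rw [Matrix.charpoly_fin_two, ht, hd, map_ofNat, map_one]
  ring

theorem trace_sq {R : Type} [CommRing R] (u : M2 R) : (u ^ 2).trace = u.trace ^ 2 - 2 * u.det := by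
  rw [sq, Matrix.trace_fin_two, Matrix.trace_fin_two, Matrix.det_fin_two]
  simp only [Matrix.mul_apply, Fin.sum_univ_two]
  ring

variable {k : Type} [Field k]

theorem natCast_dual_eq_zero {p : ℕ} [CharP k p] : ((p : ℕ) : DualNumber k) = 0 := by
  have : ((p : ℕ) : DualNumber k) = TrivSqZeroExt.inl ((p : ℕ) : k) :=
    (map_natCast (TrivSqZeroExt.inlHom k k) p).symm
  rw [this, CharP.cast_eq_zero]
  rfl

theorem map_fst_pow (a : M2 (DualNumber k)) (n : ℕ) :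
    (a ^ n).map TrivSqZeroExt.fst = (a.map TrivSqZeroExt.fst) ^ n := by
  induction n with
  | zero => rw [pow_zero, pow_zero, map_fst_one]
  | succ n ih => rw [pow_succ, pow_succ, map_fst_mul, ih]

theorem map_fst_sub_one (a : M2 (DualNumber k)) :
    (a - 1).map TrivSqZeroExt.fst = a.map TrivSqZeroExt.fst - 1 := by
  have h : a = (a - 1) + 1 := by abel
  have h2 := map_fst_add (a - 1) 1
  rw [← h, map_fst_one] at h2
  rw [h2]; abel

/-- a matrix which is `≡ 1` has `(b - 1)² = 0` -/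
theorem sq_zero_of_map_fst (b : M2 (DualNumber k)) (hb : b.map TrivSqZeroExt.fst = 1) :
    (b - 1) ^ 2 = 0 := by
  have h0 : (b - 1).map TrivSqZeroExt.fst = 0 := by rw [map_fst_sub_one, hb, sub_self]
  have z1 : (0 : M2 (DualNumber k)).map TrivSqZeroExt.fst = 0 := by ext i j; simp
  have z2 : (0 : M2 (DualNumber k)).map TrivSqZeroExt.snd = 0 := by ext i j; simp
  rw [sq]
  apply dual_ext
  · rw [map_fst_mul, h0, zero_mul, z1]
  · rw [map_snd_mul, h0, zero_mul, mul_zero, add_zero, z2]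

/-- the exponent -/
theorem pow_pp_eq_one {p : ℕ} [CharP k p] (a : M2 (DualNumber k))
    (ha : (a.map TrivSqZeroExt.fst).charpoly = (X - 1) ^ 2) : a ^ (p * p) = 1 := by
  rw [pow_mul]
  refine pow_p_eq_one_of_sq_zero natCast_dual_eq_zero _ (sq_zero_of_map_fst _ ?_)
  rw [map_fst_pow]
  exact pow_p_eq_one_of_sq_zero (CharP.cast_eq_zero k p) _ (sq_zero_of_charpoly _ ha)

theorem trace_fst (a : M2 (DualNumber k)) : a.trace.fst = (a.map TrivSqZeroExt.fst).trace := by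
  rw [Matrix.trace_fin_two, Matrix.trace_fin_two]
  rfl

/-- the trace equation -/
theorem eq_two_of_sq (h3 : (3 : k) ≠ 0) (t : DualNumber k) (h0 : t.fst = 2) (h : t = t ^ 2 - 2 * 1) :
    t = 2 := by
  have e2 : (2 : DualNumber k) = TrivSqZeroExt.inl 2 :=
    (map_ofNat (TrivSqZeroExt.inlHom k k) 2).symm
  have hs := congrArg TrivSqZeroExt.snd h
  rw [e2, sq] at hs
  simp [h0] at hs
  have h4 : (3 : k) * t.snd = 0 := by linear_combination -hs
  have h5 : t.snd = 0 := (mul_eq_zero.1 h4).resolve_left h3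
  rw [e2]
  exact TrivSqZeroExt.ext h0 h5

end GenTwo

variable {p : ℕ} [Fact p.Prime] {k : Type} [Field k] [Finite k] [CharP k p] (h2 : (2 : k) ≠ 0)

/-- the prime `2` -/
abbrev twoP : Nat.Primes := ⟨2, Nat.prime_two⟩

omit [Finite k] in
/-- **[U2]** a lift with trivial determinant on `I_2` is unipotent on `I_2` (`p ≥ 5`). -/
theorem charpoly_inertia_two (hp2 : p ≠ 2) (h3 : (3 : k) ≠ 0) (rbar : GQ →* M2 k)
    (r₁ : GQ →* M2 (DualNumber k))
    (hcont : ∃ L : IntermediateField ℚ Qb, FiniteDimensional ℚ L ∧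
      ∀ σ : GQ, (∀ x ∈ L, σ x = x) → r₁ σ = 1)
    (hl : IsLift rbar r₁) (hdet : ∀ σ ∈ inert twoP, (r₁ σ).det = 1)
    (hun : ∀ σ ∈ inert twoP, (rbar σ).charpoly = (X - 1) ^ 2) :
    ∀ σ ∈ inert twoP, (r₁ σ).charpoly = (X - 1) ^ 2 := by
  have hp : p.Prime := Fact.out
  have hA := liesOverPrime_primeLocalPlace twoP
  have hcop : Nat.Coprime (p * p) 2 := by
    have : Nat.Coprime p 2 := (Nat.coprime_primes hp Nat.prime_two).2 hp2
    exact Nat.Coprime.mul_left this this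
  obtain ⟨L, hLfin, hL⟩ := hcont
  have hc : ∃ L : IntermediateField ℚ Qb, FiniteDimensional ℚ L ∧
      ∀ σ : ↥(inert twoP), (∀ x ∈ L, (σ : GQ) x = x) → (r₁.comp (inert twoP).subtype) σ = 1 :=
    ⟨L, hLfin, fun σ hσ => hL σ hσ⟩
  have htors : ∀ σ : ↥(inert twoP), (r₁.comp (inert twoP).subtype) σ ^ (p * p) = 1 := fun σ =>
    GenTwo.pow_pp_eq_one _ (by
      show ((r₁ (σ : GQ)).map TrivSqZeroExt.fst).charpoly = _
      rw [hl]; exact hun σ σ.2)
  obtain ⟨σ₀, hσ₀⟩ := tame_cyclic Nat.prime_two hA (r₁.comp (inert twoP).subtype) hc (p * p) hcop htors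
  obtain ⟨φ, hφ⟩ := exists_isFrobeniusAt Nat.prime_two hA
  have hconj := conj_mem_inertia Nat.prime_two hA hφ.mem_decompositionSubgroup σ₀.2
  have hfr := tame_frob Nat.prime_two hA (r₁.comp (inert twoP).subtype) hc (p * p) hcop htors hφ σ₀ hconj
  have hfr' : r₁ φ * r₁ σ₀ * r₁ φ⁻¹ = r₁ σ₀ ^ 2 := by
    rw [← map_mul, ← map_mul]; exact hfr
  have hinv : r₁ φ⁻¹ * r₁ φ = 1 := by rw [← map_mul, inv_mul_cancel, map_one]
  have htr : (r₁ σ₀).trace = (r₁ σ₀).trace ^ 2 - 2 * 1 := by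
    rw [← hdet σ₀ σ₀.2, ← GenTwo.trace_sq, ← hfr', Matrix.trace_mul_comm, ← mul_assoc, hinv, one_mul]
  have ht0 : (r₁ σ₀).trace.fst = 2 := by
    rw [GenTwo.trace_fst, hl]
    exact (LocMin.trace_det_of_charpoly _ (hun σ₀ σ₀.2)).1
  have ht : (r₁ σ₀).trace = 2 := GenTwo.eq_two_of_sq h3 _ ht0 htr
  have hch := GenTwo.charpoly_of_trace_det _ ht (hdet σ₀ σ₀.2)
  have hsq := GenTwo.sq_zero_of_charpoly _ hch
  intro σ hσ
  obtain ⟨n, hn⟩ := hσ₀ ⟨σ, hσ⟩
  have hn' : r₁ σ = r₁ σ₀ ^ n := hn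
  refine GenTwo.charpoly_of_trace_det _ ?_ (hdet σ hσ)
  rw [hn', GenTwo.pow_eq_of_sq_zero _ hsq n, Matrix.trace_add, Matrix.trace_smul, Matrix.trace_sub, ht,
    Matrix.trace_one]
  simp

/-- **[LOC-MIN]**, matrix form -/
theorem resLoc_coc_mem_Lur_of_charpoly (rbar : GQ →* M2 k) (q : Nat.Primes) (hqp : (q : ℕ) ≠ p)
    (hram : ∃ σ ∈ inert q, rbar σ ≠ 1) (r₁ : GQ →* M2 (DualNumber k))
    (hcont : ∃ L : IntermediateField ℚ Qb, FiniteDimensional ℚ L ∧
      ∀ σ : GQ, (∀ x ∈ L, σ x = x) → r₁ σ = 1)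
    (hl : IsLift rbar r₁) (hchar : ∀ σ ∈ inert q, (r₁ σ).charpoly = (X - 1) ^ 2) :
    resLoc k q (coc h2 r₁) ∈ Lur (adRep rbar) q := by
  have hp : p.Prime := Fact.out
  have hA := liesOverPrime_primeLocalPlace q
  have hcop : Nat.Coprime p q := (Nat.coprime_primes hp q.2).2 (Ne.symm hqp)
  obtain ⟨L, hLfin, hL⟩ := hcont
  refine ⟨resLoc_mem_Z1loc' _ (coc_mem_Z1 h2 levAll hl ?_) q, ?_⟩
  · refine ⟨(IntermediateField.normalClosure ℚ L Qb).fixingSubgroup,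
      ⟨_, normalClosure.is_finiteDimensional ℚ L Qb, normalClosure.normal ℚ L Qb, rfl⟩,
      fun s hs => hL s (fun x hx => ?_)⟩
    exact hs ⟨x, IntermediateField.le_normalClosure L hx⟩
  -- cyclicity
  obtain ⟨σ₀, hσ₀⟩ := tame_cyclic q.2 hA (r₁.comp (inert q).subtype)
    ⟨L, hLfin, fun σ hσ => hL σ hσ⟩ p hcop (fun σ => LocMin.pow_p_eq_one _ (hchar σ σ.2))
  have hpow : ∀ σ ∈ inert q, ∃ n : ℕ, r₁ σ = r₁ σ₀ ^ n := fun σ hσ => hσ₀ ⟨σ, hσ⟩
  have hbar : ∀ (σ : GQ) (n : ℕ), r₁ σ = r₁ σ₀ ^ n → rbar σ = rbar σ₀ ^ n := by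
    intro σ n h
    rw [← hl σ, h, ← map_pow, hl, map_pow]
  have hne : rbar σ₀ ≠ 1 := by
    intro h1
    obtain ⟨σ, hσ, hσ1⟩ := hram
    obtain ⟨n, hn⟩ := hpow σ hσ
    rw [hbar σ n hn, h1, one_pow] at hσ1
    exact hσ1 rfl
  obtain ⟨m, hm'⟩ := exists_conj_unipotent (rbar σ₀) (r₁ σ₀) (hl σ₀) hne (hchar σ₀ σ₀.2)
  change onePlus m * _ = _ * onePlus m at hm'
  have hinl : ∀ (a : M2 k) (n : ℕ), (a ^ n).map (TrivSqZeroExt.inl : k → DualNumber k) =
      (a.map (TrivSqZeroExt.inl : k → DualNumber k)) ^ n := fun a n =>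
    map_pow (TrivSqZeroExt.inlHom k k).mapMatrix a n
  have hconj : ∀ n : ℕ, onePlus m * ((rbar σ₀).map (TrivSqZeroExt.inl : k → DualNumber k)) ^ n =
      r₁ σ₀ ^ n * onePlus m := by
    intro n
    induction n with
    | zero => simp
    | succ n ih => rw [pow_succ, ← mul_assoc, ih, mul_assoc, hm', pow_succ, mul_assoc]
  refine ⟨- toSl2 h2 m, fun σ hσ => ?_⟩
  obtain ⟨n, hn⟩ := hpow σ hσ
  have h1 : onePlus m * (rbar σ).map (TrivSqZeroExt.inl : k → DualNumber k) = r₁ σ * onePlus m := by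
    rw [hbar σ n hn, hinl, hconj, hn]
  have h3 := congrArg (fun X : M2 (DualNumber k) => X.map TrivSqZeroExt.snd) h1
  simp only [map_snd_mul, map_fst_onePlus, map_snd_onePlus, map_fst_map_inl, map_snd_map_inl,
    mul_zero, zero_add, mul_one, hl (σ : GQ)] at h3
  have h4 : cocM r₁ σ = - (adFull rbar σ m - m) := by
    have e : (r₁ σ).map TrivSqZeroExt.snd = m * rbar σ - rbar σ * m := by
      rw [h3]; abel
    rw [cocM, e, hl, adFull_apply, sub_mul, mul_assoc m, rbar_mul_inv, mul_one]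
    abel
  rw [resLoc_apply, coc, h4, map_neg, map_sub, toSl2_adFull, map_neg]
  abel

/-- **[U2-LUR]** the condition `Lur` at `2` is automatic (`p ≥ 5`, `rbar|_{I_2}` unipotent and non trivial). -/
theorem resLoc_coc_mem_Lur_two (hp2 : p ≠ 2) (h3 : (3 : k) ≠ 0) (rbar : GQ →* M2 k)
    (hram : ∃ σ ∈ inert twoP, rbar σ ≠ 1) (r₁ : GQ →* M2 (DualNumber k))
    (hcont : ∃ L : IntermediateField ℚ Qb, FiniteDimensional ℚ L ∧
      ∀ σ : GQ, (∀ x ∈ L, σ x = x) → r₁ σ = 1)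
    (hl : IsLift rbar r₁) (hdet : ∀ σ ∈ inert twoP, (r₁ σ).det = 1)
    (hun : ∀ σ ∈ inert twoP, (rbar σ).charpoly = (X - 1) ^ 2) :
    resLoc k twoP (coc h2 r₁) ∈ Lur (adRep rbar) twoP :=
  resLoc_coc_mem_Lur_of_charpoly h2 rbar twoP (fun h => hp2 h.symm) hram r₁ hcont hl
    (charpoly_inertia_two hp2 h3 rbar r₁ hcont hl hdet hun)

end Fermat.Agent.S56
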