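import Fermat.Agent.S56.Gen.FlatM

/-!
# S56 / Gen / MainW : (GEN) with the local hypotheses in their WEAKEST form (on the cocycles of the tangent vectors), and the flat version.

* `GenHypW` : like `GenHyp`, but `hard`, `min` are stated for the cocycles `coc (pushRep φ rA)`, `φ ∈ TanSet π J`.   `GenHyp.toW`.
* `exists_tw_gen_w` : `exists_tw_gen` for `GenHypW`.
* `GenHypFlat` : no `Lp`; at `p` : `HasFlat (Ap p).valuation (matAct (Ip p) (pushRep φ rA))`.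
* `exists_tw_gen_flat` : (GEN) for `GenHypFlat`   (this is the form used by RIB).
-/

set_option autoImplicit false

open ExtCitation Polynomial

namespace Fermat.Agent.S56

open CFT (levS levAll decomp Z1 B1 Qb IsSmooth)
open Gen

variable {k : Type} [Field k] {p : ℕ} [Fact p.Prime]

/-- the hypotheses of (GEN), weak form. -/
structure GenHypW (p : ℕ) [Fact p.Prime] (h2 : (2 : k) ≠ 0) (rbar : GQ →* M2 k)
    (S₀ Q R : Finset Nat.Primes) (Lp : Submodule k (↥(decomp (pPrime p)) → sl2 k))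
    {Λ A : Type} [CommRing Λ] [Algebra Λ k] [CommRing A] [Algebra Λ A]
    (π : A →ₐ[Λ] k) (rA : GQ →* M2 A) (J : Ideal A) : Prop where
  lift : ∀ σ, (rA σ).map π = rbar σ
  det : ∀ σ, ∃ c : Λ, (rA σ).det = algebraMap Λ A c
  tr : Algebra.adjoin Λ (Set.range fun σ => (rA σ).trace) = ⊤
  lev : ∃ U ∈ (levS (S₀ ∪ Q)).carrier, ∀ s ∈ U, rA s = 1
  J_le : ∀ a ∈ J, π a = 0
  hard : ∀ v ∈ R, ∀ φ ∈ TanSet π J, resLoc k v (coc h2 (pushRep φ rA)) = 0
  atp : ∀ φ ∈ TanSet π J, resLoc k (pPrime p) (coc h2 (pushRep φ rA)) ∈ Lp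
  min : ∀ v ∈ S₀, v ∉ R → v ≠ pPrime p → ∀ φ ∈ TanSet π J,
    resLoc k v (coc h2 (pushRep φ rA)) ∈ Lur (adRep rbar) v

section

variable {Λ A : Type} [CommRing Λ] [Algebra Λ k] [CommRing A] [Algebra Λ A]
  {h2 : (2 : k) ≠ 0} {rbar : GQ →* M2 k} {S₀ Q R : Finset Nat.Primes}
  {Lp : Submodule k (↥(decomp (pPrime p)) → sl2 k)} {π : A →ₐ[Λ] k} {rA : GQ →* M2 A} {J : Ideal A}

theorem cont_pushRep {T : Finset Nat.Primes} (hlev : ∃ U ∈ (levS T).carrier, ∀ s ∈ U, rA s = 1)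
    (φ : A →ₐ[Λ] DualNumber k) : GaloisFactorsThroughFiniteLevel (pushRep φ rA) := by
  obtain ⟨U, hU, hs⟩ := hlev
  exact cont_of_levS ⟨U, hU, fun s hsU => pushRep_eq_one φ (hs s hsU)⟩

theorem GenHyp.toW [Finite k] [CharP k p] (H : GenHyp p h2 rbar S₀ Q R Lp π rA J) :
    GenHypW p h2 rbar S₀ Q R Lp π rA J where
  lift := H.lift
  det := H.det
  tr := H.tr
  lev := H.lev
  J_le := H.J_le
  hard := fun v hv φ hφ => resLoc_coc_eq_zero h2 hφ.2 v (H.hard v hv)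
  atp := H.atp
  min := by
    intro v hv hvR hvp φ hφ
    have hl : IsLift rbar (pushRep φ rA) := isLift_pushRep H.lift hφ.1
    have hcont := cont_pushRep H.lev φ
    have hvp' : (v : ℕ) ≠ p := fun e => hvp (Subtype.ext e)
    rcases H.min v hv hvR hvp with hu | ⟨hram, hu⟩
    · exact resLoc_coc_mem_Lur_of_trivial h2 rbar v _ hcont hl
        (fun σ hσ => pushRep_eq_one φ (hu σ hσ))
    · exact resLoc_coc_mem_Lur_of_unip h2 rbar v hvp' hram _ hcont hl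
        (fun σ hσ => charpoly_pushRep φ (hu σ hσ))

/-- enlarging `S₀` by primes at which nothing happens. -/
theorem GenHypW.mono (H : GenHypW p h2 rbar S₀ Q R Lp π rA J) {S₀' : Finset Nat.Primes}
    (hS : S₀ ⊆ S₀') (hdisj : Disjoint S₀' Q) : GenHypW p h2 rbar S₀' Q R Lp π rA J where
  lift := H.lift
  det := H.det
  tr := H.tr
  lev := by
    obtain ⟨U, hU, hs⟩ := H.lev
    exact ⟨U, levS_carrier_mono (Finset.union_subset_union_left hS) hU, hs⟩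
  J_le := H.J_le
  hard := H.hard
  atp := H.atp
  min := by
    intro v hv hvR hvp φ hφ
    by_cases hv0 : v ∈ S₀
    · exact H.min v hv0 hvR hvp φ hφ
    · obtain ⟨U, hU, hs⟩ := H.lev
      have hvT : v ∉ S₀ ∪ Q := fun h => by
        rcases Finset.mem_union.1 h with h | h
        · exact hv0 h
        · exact (Finset.disjoint_left.1 hdisj hv) h
      exact resLoc_coc_mem_Lur_of_trivial h2 rbar v _ (cont_pushRep H.lev φ)
        (isLift_pushRep H.lift hφ.1)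
        (fun σ hσ => pushRep_eq_one φ (hs σ (inert_le_of_mem_levS hU hvT hσ)))

variable [Finite k] [CharP k p]

theorem GenHypW.coc_mem_Sel (H : GenHypW p h2 rbar S₀ Q R Lp π rA J)
    {φ : A →ₐ[Λ] DualNumber k} (hφ : φ ∈ TanSet π J) :
    coc h2 (pushRep φ rA) ∈ Sel (S₀ ∪ Q) S₀ (adRep rbar) (locFamR rbar Lp R) := by
  have hl : IsLift rbar (pushRep φ rA) := isLift_pushRep H.lift hφ.1
  have hlev : ∃ U ∈ (levS (S₀ ∪ Q)).carrier, ∀ s ∈ U, pushRep φ rA s = 1 := by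
    obtain ⟨U, hU, hs⟩ := H.lev
    exact ⟨U, hU, fun s hsU => pushRep_eq_one φ (hs s hsU)⟩
  rw [mem_Sel]
  refine ⟨coc_mem_Z1 h2 _ hl hlev, fun v hv => ?_⟩
  by_cases hvR : v ∈ R
  · rw [locFamR_mem rbar Lp hvR, Submodule.mem_bot]
    exact H.hard v hvR φ hφ
  rw [locFamR_not_mem rbar Lp hvR]
  by_cases hvp : v = pPrime p
  · subst hvp; rw [locFam_p]; exact H.atp φ hφ
  rw [locFam_ne rbar Lp hvp]
  exact H.min v hv hvR hvp φ hφ

/-- **[GEN-CARD]**, weak hypotheses -/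
theorem GenHypW.card_tanSet_le (H : GenHypW p h2 rbar S₀ Q R Lp π rA J) (hp2 : p ≠ 2)
    (h : RbarHyp p rbar) (hdisj : Disjoint S₀ Q) (hpS : pPrime p ∈ S₀)
    (hur : UnramOutside rbar S₀)
    (hQ : ∀ q ∈ Q, p ∣ (q : ℕ) - 1 ∧ ∃ φ : GQ, (primeLocalPlace q).IsFrobeniusAt φ (q : ℕ) ∧
      ∃ α β : k, α ≠ β ∧ (rbar φ).charpoly = (X - C α) * (X - C β))
    (hkill : ∀ b ∈ Z1 (levS (S₀ ∪ Q)) (adTw p rbar),
      (∀ q ∈ Q, resLoc k q b ∈ B1loc (adTw p rbar) q) → b ∈ B1 (adTw p rbar))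
    (hGW : GWStatement p rbar S₀ Q)
    (hR : R ⊆ S₀) (hpR : pPrime p ∉ R) (hscal : ∀ v ∈ R, ScalarAt rbar v)
    (hLpB : B1loc (adRep rbar) (pPrime p) ≤ Lp) (hLpZ : Lp ≤ Z1loc (adRep rbar) (pPrime p))
    (hLpcard : Nat.card ↥Lp ≤ Nat.card k ^ 4) :
    (TanSet π J).Finite ∧
      Nat.card ↥(TanSet π J) * Nat.card k ^ (3 * R.card) ≤ Nat.card k ^ Q.card := by
  classical
  obtain ⟨hfin, hcard⟩ := card_Sel_hard_le hp2 h S₀ Q R hdisj hpS hur hQ hkill hGW hR hpR hscal Lp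
    hLpB hLpZ hLpcard
  have hur' : UnramOutside rbar (S₀ ∪ Q) := hur.mono Finset.subset_union_left
  have hsm : IsSmooth (levS (S₀ ∪ Q)) (adRep rbar) := adRep_smooth h.cont _ hur'
  have hsmA : IsSmooth levAll (adRep rbar) := isSmooth_levAll_of_levS hsm
  have hB : B1 (adRep rbar) ≤ Sel (S₀ ∪ Q) S₀ (adRep rbar) (locFamR rbar Lp R) := by
    intro c hc
    rw [mem_Sel]
    refine ⟨CFT.B1_le_Z1 hsm hc, fun v _ => ?_⟩
    have hloc := resLoc_mem_B1loc (adRep rbar) hc v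
    by_cases hvR : v ∈ R
    · rw [locFamR_mem rbar Lp hvR, ← (hscal v hvR).B1loc_eq_bot]; exact hloc
    rw [locFamR_not_mem rbar Lp hvR]
    by_cases hv : v = pPrime p
    · subst hv; rw [locFam_p]; exact hLpB hloc
    · rw [locFam_ne rbar Lp hv]; exact B1loc_le_Lur _ hsmA v hloc
  obtain ⟨hfinT, hmain⟩ := card_tanSet_mul_le h2 rbar π rA H.lift H.det H.tr J _ hfin hB
    (adRep_invariants hp2 h) (fun φ hφ => H.coc_mem_Sel hφ)
  refine ⟨hfinT, ?_⟩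
  rw [card_sl2] at hmain
  have hK : 0 < Nat.card k := Nat.card_pos
  have h3 := (Nat.mul_le_mul_right (Nat.card k ^ (3 * R.card)) hmain).trans hcard
  rw [pow_add, mul_right_comm] at h3
  exact Nat.le_of_mul_le_mul_right h3 (pow_pos hK 3)

/-- from the count to generators -/
theorem exists_gens_of_card_tanSet_le (hJ : ∀ a ∈ J, π a = 0) {t r : ℕ}
    (hfin : (TanSet π J).Finite)
    (hcard : Nat.card ↥(TanSet π J) * Nat.card k ^ r ≤ Nat.card k ^ t)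
    (hΛ : Function.Surjective (algebraMap Λ k)) :
    r ≤ t ∧ ∃ x : Fin (t - r) → A, (∀ i, π (x i) = 0) ∧
      RingHom.ker (π : A →+* k) ≤ J ⊔ Ideal.span (Set.range x) ⊔ RingHom.ker (π : A →+* k) ^ 2 ⊔
        (RingHom.ker (algebraMap Λ k)).map (algebraMap Λ A) := by
  have hK1 : 1 < Nat.card k := Finite.one_lt_card
  have hK : 0 < Nat.card k := Nat.card_pos
  have hne : Nonempty ↥(TanSet π J) :=
    ⟨⟨(TrivSqZeroExt.inlAlgHom Λ k k).comp π, fun a => rfl, fun a ha => by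
      show TrivSqZeroExt.inl (π a) = 0
      rw [hJ a ha, TrivSqZeroExt.inl_zero]⟩⟩
  have hfin' : Finite ↥(TanSet π J) := hfin
  have hpos : 0 < Nat.card ↥(TanSet π J) := Nat.card_pos
  have h3 : r ≤ t := by
    refine (Nat.pow_le_pow_iff_right hK1).1 (le_trans ?_ hcard)
    exact Nat.le_mul_of_pos_left _ hpos
  refine ⟨h3, exists_gens_of_card_le hΛ π J hJ _ hfin ?_⟩
  have h4 : Nat.card k ^ t = Nat.card k ^ (t - r) * Nat.card k ^ r := by
    rw [← pow_add, Nat.sub_add_cancel h3]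
  rw [h4] at hcard
  exact Nat.le_of_mul_le_mul_right hcard (pow_pos hK _)

end

variable [Finite k] [CharP k p]

/-- **[GEN]**, weak hypotheses. -/
theorem exists_tw_gen_w (hp2 : p ≠ 2) (h2 : (2 : k) ≠ 0) {rbar : GQ →* M2 k} (h : RbarHyp p rbar)
    (S₀ : Finset Nat.Primes) (hpS : pPrime p ∈ S₀) (hur : UnramOutside rbar S₀) :
    ∃ t : ℕ, ∀ (n : ℕ) (T : Finset ℕ), ∃ qv : Fin t → Nat.Primes, Function.Injective qv ∧
      (∀ i, ((qv i : Nat.Primes) : ℕ) ∉ T ∧ qv i ∉ S₀ ∧ p ^ (n + 1) ∣ ((qv i : Nat.Primes) : ℕ) - 1 ∧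
        ∃ φ : GQ, (primeLocalPlace (qv i)).IsFrobeniusAt φ ((qv i : Nat.Primes) : ℕ) ∧
          ∃ α β : k, α ≠ β ∧ (rbar φ).charpoly = (X - C α) * (X - C β)) ∧
      ∀ (R : Finset Nat.Primes), R ⊆ S₀ → pPrime p ∉ R → (∀ v ∈ R, ScalarAt rbar v) →
      ∀ (Lp : Submodule k (↥(decomp (pPrime p)) → sl2 k)), B1loc (adRep rbar) (pPrime p) ≤ Lp →
        Lp ≤ Z1loc (adRep rbar) (pPrime p) → Nat.card ↥Lp ≤ Nat.card k ^ 4 →
      ∀ (Λ A : Type) [CommRing Λ] [Algebra Λ k] [CommRing A] [Algebra Λ A]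
        (_ : Function.Surjective (algebraMap Λ k)) (π : A →ₐ[Λ] k) (rA : GQ →* M2 A) (J : Ideal A),
        GenHypW p h2 rbar S₀ (Finset.univ.image qv) R Lp π rA J →
        3 * R.card ≤ t ∧ ∃ x : Fin (t - 3 * R.card) → A, (∀ i, π (x i) = 0) ∧
          RingHom.ker (π : A →+* k) ≤ J ⊔ Ideal.span (Set.range x) ⊔
            RingHom.ker (π : A →+* k) ^ 2 ⊔ (RingHom.ker (algebraMap Λ k)).map (algebraMap Λ A) := by
  classical
  obtain ⟨S₁, hS₁⟩ := exists_S1_greenberg_wiles hp2 h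
  have hur' : UnramOutside rbar (S₀ ∪ S₁) := hur.mono Finset.subset_union_left
  have hpS' : pPrime p ∈ S₀ ∪ S₁ := Finset.mem_union_left _ hpS
  obtain ⟨t, ht⟩ := exists_tw_primes hp2 h (S₀ ∪ S₁) hpS' hur'
  refine ⟨t, fun n T => ?_⟩
  obtain ⟨qv, hinj, hq, hkill⟩ := ht n (T ∪ (S₀ ∪ S₁).image (fun q : Nat.Primes => (q : ℕ)))
  have hnotS : ∀ i, qv i ∉ S₀ ∪ S₁ := fun i hi =>
    (hq i).1 (Finset.mem_union_right _ (Finset.mem_image_of_mem _ hi))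
  refine ⟨qv, hinj, fun i => ⟨fun hi => (hq i).1 (Finset.mem_union_left _ hi),
    fun hi => hnotS i (Finset.mem_union_left _ hi), (hq i).2⟩, ?_⟩
  intro R hR hpR hscal Lp hLpB hLpZ hLpcard Λ A _ _ _ _ hΛ π rA J H
  have hcard : (Finset.univ.image qv).card = t := by
    rw [Finset.card_image_of_injective _ hinj, Finset.card_univ, Fintype.card_fin]
  have hdisj : Disjoint (S₀ ∪ S₁) (Finset.univ.image qv) := by
    rw [Finset.disjoint_left]
    intro q hq1 hq2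
    obtain ⟨i, -, rfl⟩ := Finset.mem_image.1 hq2
    exact hnotS i hq1
  have hQ : ∀ q ∈ Finset.univ.image qv, p ∣ (q : ℕ) - 1 ∧ ∃ φ : GQ,
      (primeLocalPlace q).IsFrobeniusAt φ (q : ℕ) ∧
      ∃ α β : k, α ≠ β ∧ (rbar φ).charpoly = (X - C α) * (X - C β) := fun q hq' => by
    obtain ⟨i, -, rfl⟩ := Finset.mem_image.1 hq'
    exact ⟨(dvd_pow_self p (Nat.succ_ne_zero n)).trans (hq i).2.1, (hq i).2.2⟩
  obtain ⟨hfin, hc⟩ := (H.mono Finset.subset_union_left hdisj).card_tanSet_le hp2 h hdisj hpS' hur'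
    hQ hkill (hS₁ _ _ Finset.subset_union_right hdisj hpS' hur' hQ)
    (hR.trans Finset.subset_union_left) hpR hscal hLpB hLpZ hLpcard
  rw [hcard] at hc
  exact exists_gens_of_card_tanSet_le H.J_le hfin hc hΛ

/-- the hypotheses of (GEN) with the flat condition at `p`. -/
structure GenHypFlat (p : ℕ) [Fact p.Prime] (h2 : (2 : k) ≠ 0) (rbar : GQ →* M2 k)
    (S₀ Q R : Finset Nat.Primes)
    {Λ A : Type} [CommRing Λ] [Algebra Λ k] [CommRing A] [Algebra Λ A]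
    (π : A →ₐ[Λ] k) (rA : GQ →* M2 A) (J : Ideal A) : Prop where
  lift : ∀ σ, (rA σ).map π = rbar σ
  det : ∀ σ, ∃ c : Λ, (rA σ).det = algebraMap Λ A c
  tr : Algebra.adjoin Λ (Set.range fun σ => (rA σ).trace) = ⊤
  lev : ∃ U ∈ (levS (S₀ ∪ Q)).carrier, ∀ s ∈ U, rA s = 1
  J_le : ∀ a ∈ J, π a = 0
  hard : ∀ v ∈ R, ∀ φ ∈ TanSet π J, resLoc k v (coc h2 (pushRep φ rA)) = 0
  flat : ∀ φ ∈ TanSet π J,
    Flat.HasFlat (Flat.Ap p).valuation (Flat.matAct (Flat.Ip p) (pushRep φ rA))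
  min : ∀ v ∈ S₀, v ∉ R → v ≠ pPrime p → ∀ φ ∈ TanSet π J,
    resLoc k v (coc h2 (pushRep φ rA)) ∈ Lur (adRep rbar) v

/-- **[GEN]**, flat at `p`. -/
theorem exists_tw_gen_flat (hp2 : p ≠ 2) (h2 : (2 : k) ≠ 0) {rbar : GQ →* M2 k}
    (h : RbarHyp p rbar) (S₀ : Finset Nat.Primes) (hpS : pPrime p ∈ S₀)
    (hur : UnramOutside rbar S₀) :
    ∃ t : ℕ, ∀ (n : ℕ) (T : Finset ℕ), ∃ qv : Fin t → Nat.Primes, Function.Injective qv ∧
      (∀ i, ((qv i : Nat.Primes) : ℕ) ∉ T ∧ qv i ∉ S₀ ∧ p ^ (n + 1) ∣ ((qv i : Nat.Primes) : ℕ) - 1 ∧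
        ∃ φ : GQ, (primeLocalPlace (qv i)).IsFrobeniusAt φ ((qv i : Nat.Primes) : ℕ) ∧
          ∃ α β : k, α ≠ β ∧ (rbar φ).charpoly = (X - C α) * (X - C β)) ∧
      ∀ (R : Finset Nat.Primes), R ⊆ S₀ → pPrime p ∉ R → (∀ v ∈ R, ScalarAt rbar v) →
      ∀ (Λ A : Type) [CommRing Λ] [Algebra Λ k] [CommRing A] [Algebra Λ A]
        (_ : Function.Surjective (algebraMap Λ k)) (π : A →ₐ[Λ] k) (rA : GQ →* M2 A) (J : Ideal A),
        GenHypFlat p h2 rbar S₀ (Finset.univ.image qv) R π rA J →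
        3 * R.card ≤ t ∧ ∃ x : Fin (t - 3 * R.card) → A, (∀ i, π (x i) = 0) ∧
          RingHom.ker (π : A →+* k) ≤ J ⊔ Ideal.span (Set.range x) ⊔
            RingHom.ker (π : A →+* k) ^ 2 ⊔ (RingHom.ker (algebraMap Λ k)).map (algebraMap Λ A) := by
  obtain ⟨Lp, hB, hZ, -, hcard, hmem⟩ := flatTanM hp2 h2 rbar h.cont h.det h.split
  obtain ⟨t, ht⟩ := exists_tw_gen_w hp2 h2 h S₀ hpS hur
  refine ⟨t, fun n T => ?_⟩
  obtain ⟨qv, hinj, hq, hgen⟩ := ht n T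
  refine ⟨qv, hinj, hq, fun R hR hpR hscal Λ A _ _ _ _ hΛ π rA J H => ?_⟩
  refine hgen R hR hpR hscal Lp hB hZ hcard Λ A hΛ π rA J
    { lift := H.lift, det := H.det, tr := H.tr, lev := H.lev, J_le := H.J_le, hard := H.hard,
      min := H.min, atp := fun φ hφ => hmem _ ?_ }
  exact ⟨isLift_pushRep H.lift hφ.1, det_pushRep H.lift H.det φ, cont_pushRep H.lev φ, H.flat φ hφ⟩

end Fermat.Agent.S56
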