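import Fermat.Agent.S56.Gen.Loc
import Fermat.Agent.S56.TW.Sel

/-!
# S56 / Gen / Main : (GEN)  "a ring generated by traces needs `#Q - 3 #R` generators besides the local coordinates at the hard primes `R`".

`rbar : GQ →* M2 k` with `RbarHyp p rbar`, unramified outside `S₀ ∋ p`; `R ⊆ S₀ \ {p}` with `rbar|_{D_v}` scalar for `v ∈ R`.
`Λ ↠ k`, `A` a `Λ`-algebra, `π : A →ₐ[Λ] k`, `rA : GQ →* M2 A`, `J` an ideal of `A`:  `GenHyp` collects
 `lift` (`π ∘ rA = rbar`), `det` (`det rA σ ∈ Λ`), `tr` (`A = Λ[tr rA σ]`), `lev` (`rA` is trivial on a level of `levS (S₀ ∪ Q)`), `J_le` (`J ≤ ker π`),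
 `hard` (`rA σ` is a scalar of `Λ` modulo `J` for `σ ∈ D_v`, `v ∈ R`), `atp` (the cocycles at `p` lie in `Lp`),
 `min` (at the other `v ∈ S₀`: `rA` unramified, or `rbar` ramified and `rA` unipotent on inertia).
* `GenHyp.card_tanSet_le` : `#TanSet π J * #k^(3 #R) ≤ #k^(#Q)`  (given the Taylor-Wiles set `Q`).
* `GenHyp.exists_gens`    : `3 #R ≤ #Q`, `ker π ≤ J + (x_1 .. x_{#Q - 3 #R}) + (ker π)² + ker (Λ → k) A`.
* `exists_tw_gen`         : existence of the Taylor-Wiles sets (`t = #Q` independent of `n`), with `exists_gens` for all `R`, `Lp`, `Λ`, `A`, ...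
-/

set_option autoImplicit false

open ExtCitation Polynomial

namespace Fermat.Agent.S56

open CFT (levS levAll decomp Z1 B1 Qb IsSmooth)
open Gen

variable {k : Type} [Field k] {p : ℕ} [Fact p.Prime]

/-- the hypotheses of (GEN) on `(A, π, rA, J)`. -/
structure GenHyp (p : ℕ) [Fact p.Prime] (h2 : (2 : k) ≠ 0) (rbar : GQ →* M2 k)
    (S₀ Q R : Finset Nat.Primes) (Lp : Submodule k (↥(decomp (pPrime p)) → sl2 k))
    {Λ A : Type} [CommRing Λ] [Algebra Λ k] [CommRing A] [Algebra Λ A]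
    (π : A →ₐ[Λ] k) (rA : GQ →* M2 A) (J : Ideal A) : Prop where
  lift : ∀ σ, (rA σ).map π = rbar σ
  det : ∀ σ, ∃ c : Λ, (rA σ).det = algebraMap Λ A c
  tr : Algebra.adjoin Λ (Set.range fun σ => (rA σ).trace) = ⊤
  lev : ∃ U ∈ (levS (S₀ ∪ Q)).carrier, ∀ s ∈ U, rA s = 1
  J_le : ∀ a ∈ J, π a = 0
  hard : ∀ v ∈ R, ∀ σ ∈ decomp v, ScalarMod Λ J (rA σ)
  atp : ∀ φ ∈ TanSet π J, resLoc k (pPrime p) (coc h2 (pushRep φ rA)) ∈ Lp
  min : ∀ v ∈ S₀, v ∉ R → v ≠ pPrime p → (∀ σ ∈ inert v, rA σ = 1) ∨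
    ((∃ σ ∈ inert v, rbar σ ≠ 1) ∧ ∀ σ ∈ inert v, (rA σ).charpoly = (X - 1) ^ 2)

theorem levS_carrier_mono {T T' : Finset Nat.Primes} (h : T ⊆ T') :
    (levS T).carrier ⊆ (levS T').carrier := by
  rintro _ ⟨F, hF, hN, rfl⟩
  exact ⟨F, ⟨hF.1, fun q hq => hF.2 q (fun hq' => hq (h hq'))⟩, hN, rfl⟩

theorem inert_le_of_mem_levS {T : Finset Nat.Primes} {U : Subgroup GQ} (hU : U ∈ (levS T).carrier)
    {v : Nat.Primes} (hv : v ∉ T) : inert v ≤ U := by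
  obtain ⟨F, hF, -, rfl⟩ := hU
  exact hF.2 v hv _ (liesOverPrime_primeLocalPlace v)

theorem cont_of_levS {M : Type} [Monoid M] {f : GQ →* M} {T : Finset Nat.Primes}
    (h : ∃ U ∈ (levS T).carrier, ∀ s ∈ U, f s = 1) : GaloisFactorsThroughFiniteLevel f := by
  obtain ⟨_, ⟨F, hF, -, rfl⟩, hs⟩ := h
  exact ⟨F, hF.1, fun σ hσ => hs σ ((IntermediateField.mem_fixingSubgroup_iff F σ).2 hσ)⟩

section

variable {Λ A : Type} [CommRing Λ] [Algebra Λ k] [CommRing A] [Algebra Λ A]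
  {h2 : (2 : k) ≠ 0} {rbar : GQ →* M2 k} {S₀ Q R : Finset Nat.Primes}
  {Lp : Submodule k (↥(decomp (pPrime p)) → sl2 k)} {π : A →ₐ[Λ] k} {rA : GQ →* M2 A} {J : Ideal A}

/-- enlarging `S₀` by primes at which nothing happens. -/
theorem GenHyp.mono (H : GenHyp p h2 rbar S₀ Q R Lp π rA J) {S₀' : Finset Nat.Primes}
    (hS : S₀ ⊆ S₀') (hdisj : Disjoint S₀' Q) : GenHyp p h2 rbar S₀' Q R Lp π rA J where
  lift := H.lift
  det := H.det
  tr := H.tr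
  lev := by
    obtain ⟨U, hU, hs⟩ := H.lev
    exact ⟨U, levS_carrier_mono (Finset.union_subset_union_left hS) hU, hs⟩
  J_le := H.J_le
  hard := H.hard
  atp := H.atp
  min := by
    intro v hv hvR hvp
    by_cases hv0 : v ∈ S₀
    · exact H.min v hv0 hvR hvp
    · left
      obtain ⟨U, hU, hs⟩ := H.lev
      have hvT : v ∉ S₀ ∪ Q := fun h => by
        rcases Finset.mem_union.1 h with h | h
        · exact hv0 h
        · exact (Finset.disjoint_left.1 hdisj hv) h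
      exact fun σ hσ => hs σ (inert_le_of_mem_levS hU hvT hσ)

theorem charpoly_pushRep (φ : A →ₐ[Λ] DualNumber k) {σ : GQ}
    (h : (rA σ).charpoly = (X - 1) ^ 2) : (pushRep φ rA σ).charpoly = (X - 1) ^ 2 := by
  have h1 : pushRep φ rA σ = (rA σ).map (φ : A →+* DualNumber k) := rfl
  rw [h1, Matrix.charpoly_map, h]
  simp

variable [Finite k] [CharP k p]

/-- the cocycles of the tangent vectors are Selmer cocycles. -/
theorem GenHyp.coc_mem_Sel (H : GenHyp p h2 rbar S₀ Q R Lp π rA J)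
    {φ : A →ₐ[Λ] DualNumber k} (hφ : φ ∈ TanSet π J) :
    coc h2 (pushRep φ rA) ∈ Sel (S₀ ∪ Q) S₀ (adRep rbar) (locFamR rbar Lp R) := by
  have hl : IsLift rbar (pushRep φ rA) := isLift_pushRep H.lift hφ.1
  have hlev : ∃ U ∈ (levS (S₀ ∪ Q)).carrier, ∀ s ∈ U, pushRep φ rA s = 1 := by
    obtain ⟨U, hU, hs⟩ := H.lev
    exact ⟨U, hU, fun s hsU => pushRep_eq_one φ (hs s hsU)⟩
  have hcont : GaloisFactorsThroughFiniteLevel (pushRep φ rA) := cont_of_levS hlev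
  rw [mem_Sel]
  refine ⟨coc_mem_Z1 h2 _ hl hlev, fun v hv => ?_⟩
  by_cases hvR : v ∈ R
  · rw [locFamR_mem rbar Lp hvR, Submodule.mem_bot]
    exact resLoc_coc_eq_zero h2 hφ.2 v (H.hard v hvR)
  rw [locFamR_not_mem rbar Lp hvR]
  by_cases hvp : v = pPrime p
  · subst hvp; rw [locFam_p]; exact H.atp φ hφ
  rw [locFam_ne rbar Lp hvp]
  have hvp' : (v : ℕ) ≠ p := fun e => hvp (Subtype.ext e)
  rcases H.min v hv hvR hvp with hu | ⟨hram, hu⟩
  · exact resLoc_coc_mem_Lur_of_trivial h2 rbar v _ hcont hl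
      (fun σ hσ => pushRep_eq_one φ (hu σ hσ))
  · exact resLoc_coc_mem_Lur_of_unip h2 rbar v hvp' hram _ hcont hl
      (fun σ hσ => charpoly_pushRep φ (hu σ hσ))

/-- **[GEN-CARD]** -/
theorem GenHyp.card_tanSet_le (H : GenHyp p h2 rbar S₀ Q R Lp π rA J) (hp2 : p ≠ 2)
    (h : RbarHyp p rbar) (hdisj : Disjoint S₀ Q) (hpS : pPrime p ∈ S₀)
    (hur : UnramOutside rbar S₀)
    (hQ : ∀ q ∈ Q, p ∣ (q : ℕ) - 1 ∧ ∃ φ : GQ, (primeLocalPlace q).IsFrobeniusAt φ (q : ℕ) ∧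
      ∃ α β : k, α ≠ β ∧ (rbar φ).charpoly = (X - C α) * (X - C β))
    (hkill : ∀ b ∈ Z1 (levS (S₀ ∪ Q)) (adTw p rbar),
      (∀ q ∈ Q, resLoc k q b ∈ B1loc (adTw p rbar) q) → b ∈ B1 (adTw p rbar))
    (hGW : GWStatement p rbar S₀ Q)
    (hR : R ⊆ S₀) (hpR : pPrime p ∉ R) (hscal : ∀ v ∈ R, ScalarAt rbar v)
    (hLpB : B1loc (adRep rbar) (pPrime p) ≤ Lp) (hLpZ : Lp ≤ Z1loc (adRep rbar) (pPrime p))
    (hLpcard : Nat.card ↥Lp ≤ Nat.card k ^ 4) :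
    (TanSet π J).Finite ∧
      Nat.card ↥(TanSet π J) * Nat.card k ^ (3 * R.card) ≤ Nat.card k ^ Q.card := by
  classical
  obtain ⟨hfin, hcard⟩ := card_Sel_hard_le hp2 h S₀ Q R hdisj hpS hur hQ hkill hGW hR hpR hscal Lp
    hLpB hLpZ hLpcard
  have hur' : UnramOutside rbar (S₀ ∪ Q) := hur.mono Finset.subset_union_left
  have hsm : IsSmooth (levS (S₀ ∪ Q)) (adRep rbar) := adRep_smooth h.cont _ hur'
  have hsmA : IsSmooth levAll (adRep rbar) := isSmooth_levAll_of_levS hsm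
  have hB : B1 (adRep rbar) ≤ Sel (S₀ ∪ Q) S₀ (adRep rbar) (locFamR rbar Lp R) := by
    intro c hc
    rw [mem_Sel]
    refine ⟨CFT.B1_le_Z1 hsm hc, fun v _ => ?_⟩
    have hloc := resLoc_mem_B1loc (adRep rbar) hc v
    by_cases hvR : v ∈ R
    · rw [locFamR_mem rbar Lp hvR, ← (hscal v hvR).B1loc_eq_bot]; exact hloc
    rw [locFamR_not_mem rbar Lp hvR]
    by_cases hv : v = pPrime p
    · subst hv; rw [locFam_p]; exact hLpB hloc
    · rw [locFam_ne rbar Lp hv]; exact B1loc_le_Lur _ hsmA v hloc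
  obtain ⟨hfinT, hmain⟩ := card_tanSet_mul_le h2 rbar π rA H.lift H.det H.tr J _ hfin hB
    (adRep_invariants hp2 h) (fun φ hφ => H.coc_mem_Sel hφ)
  refine ⟨hfinT, ?_⟩
  rw [card_sl2] at hmain
  have hK : 0 < Nat.card k := Nat.card_pos
  have h3 := (Nat.mul_le_mul_right (Nat.card k ^ (3 * R.card)) hmain).trans hcard
  rw [pow_add, mul_right_comm] at h3
  exact Nat.le_of_mul_le_mul_right h3 (pow_pos hK 3)

/-- **[GEN]** for a given Taylor-Wiles set `Q`. -/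
theorem GenHyp.exists_gens (H : GenHyp p h2 rbar S₀ Q R Lp π rA J) (hp2 : p ≠ 2)
    (h : RbarHyp p rbar) (hdisj : Disjoint S₀ Q) (hpS : pPrime p ∈ S₀)
    (hur : UnramOutside rbar S₀)
    (hQ : ∀ q ∈ Q, p ∣ (q : ℕ) - 1 ∧ ∃ φ : GQ, (primeLocalPlace q).IsFrobeniusAt φ (q : ℕ) ∧
      ∃ α β : k, α ≠ β ∧ (rbar φ).charpoly = (X - C α) * (X - C β))
    (hkill : ∀ b ∈ Z1 (levS (S₀ ∪ Q)) (adTw p rbar),
      (∀ q ∈ Q, resLoc k q b ∈ B1loc (adTw p rbar) q) → b ∈ B1 (adTw p rbar))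
    (hGW : GWStatement p rbar S₀ Q)
    (hR : R ⊆ S₀) (hpR : pPrime p ∉ R) (hscal : ∀ v ∈ R, ScalarAt rbar v)
    (hLpB : B1loc (adRep rbar) (pPrime p) ≤ Lp) (hLpZ : Lp ≤ Z1loc (adRep rbar) (pPrime p))
    (hLpcard : Nat.card ↥Lp ≤ Nat.card k ^ 4) (hΛ : Function.Surjective (algebraMap Λ k)) :
    3 * R.card ≤ Q.card ∧ ∃ x : Fin (Q.card - 3 * R.card) → A, (∀ i, π (x i) = 0) ∧
      RingHom.ker (π : A →+* k) ≤ J ⊔ Ideal.span (Set.range x) ⊔ RingHom.ker (π : A →+* k) ^ 2 ⊔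
        (RingHom.ker (algebraMap Λ k)).map (algebraMap Λ A) := by
  obtain ⟨hfin, hcard⟩ := H.card_tanSet_le hp2 h hdisj hpS hur hQ hkill hGW hR hpR hscal hLpB hLpZ
    hLpcard
  have hK1 : 1 < Nat.card k := Finite.one_lt_card
  have hK : 0 < Nat.card k := Nat.card_pos
  -- the trivial tangent vector
  have hne : Nonempty ↥(TanSet π J) :=
    ⟨⟨(TrivSqZeroExt.inlAlgHom Λ k k).comp π, fun a => rfl, fun a ha => by
      show TrivSqZeroExt.inl (π a) = 0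
      rw [H.J_le a ha, TrivSqZeroExt.inl_zero]⟩⟩
  have hfin' : Finite ↥(TanSet π J) := hfin
  have hpos : 0 < Nat.card ↥(TanSet π J) := Nat.card_pos
  have h3 : 3 * R.card ≤ Q.card := by
    refine (Nat.pow_le_pow_iff_right hK1).1 (le_trans ?_ hcard)
    exact Nat.le_mul_of_pos_left _ hpos
  refine ⟨h3, exists_gens_of_card_le hΛ π J H.J_le _ hfin ?_⟩
  have h4 : Nat.card k ^ Q.card = Nat.card k ^ (Q.card - 3 * R.card) * Nat.card k ^ (3 * R.card) := by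
    rw [← pow_add, Nat.sub_add_cancel h3]
  rw [h4] at hcard
  exact Nat.le_of_mul_le_mul_right hcard (pow_pos hK _)

end

variable [Finite k] [CharP k p]

/-- **[GEN]** : Taylor-Wiles sets of constant cardinality `t`, for which every trace-generated lift needs only
`t - 3 #R` generators besides the local coordinates at the hard primes. -/
theorem exists_tw_gen (hp2 : p ≠ 2) (h2 : (2 : k) ≠ 0) {rbar : GQ →* M2 k} (h : RbarHyp p rbar)
    (S₀ : Finset Nat.Primes) (hpS : pPrime p ∈ S₀) (hur : UnramOutside rbar S₀) :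
    ∃ t : ℕ, ∀ (n : ℕ) (T : Finset ℕ), ∃ qv : Fin t → Nat.Primes, Function.Injective qv ∧
      (∀ i, ((qv i : Nat.Primes) : ℕ) ∉ T ∧ qv i ∉ S₀ ∧ p ^ (n + 1) ∣ ((qv i : Nat.Primes) : ℕ) - 1 ∧
        ∃ φ : GQ, (primeLocalPlace (qv i)).IsFrobeniusAt φ ((qv i : Nat.Primes) : ℕ) ∧
          ∃ α β : k, α ≠ β ∧ (rbar φ).charpoly = (X - C α) * (X - C β)) ∧
      ∀ (R : Finset Nat.Primes), R ⊆ S₀ → pPrime p ∉ R → (∀ v ∈ R, ScalarAt rbar v) →
      ∀ (Lp : Submodule k (↥(decomp (pPrime p)) → sl2 k)), B1loc (adRep rbar) (pPrime p) ≤ Lp →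
        Lp ≤ Z1loc (adRep rbar) (pPrime p) → Nat.card ↥Lp ≤ Nat.card k ^ 4 →
      ∀ (Λ A : Type) [CommRing Λ] [Algebra Λ k] [CommRing A] [Algebra Λ A]
        (_ : Function.Surjective (algebraMap Λ k)) (π : A →ₐ[Λ] k) (rA : GQ →* M2 A) (J : Ideal A),
        GenHyp p h2 rbar S₀ (Finset.univ.image qv) R Lp π rA J →
        3 * R.card ≤ t ∧ ∃ x : Fin (t - 3 * R.card) → A, (∀ i, π (x i) = 0) ∧
          RingHom.ker (π : A →+* k) ≤ J ⊔ Ideal.span (Set.range x) ⊔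
            RingHom.ker (π : A →+* k) ^ 2 ⊔ (RingHom.ker (algebraMap Λ k)).map (algebraMap Λ A) := by
  classical
  obtain ⟨S₁, hS₁⟩ := exists_S1_greenberg_wiles hp2 h
  have hur' : UnramOutside rbar (S₀ ∪ S₁) := hur.mono Finset.subset_union_left
  have hpS' : pPrime p ∈ S₀ ∪ S₁ := Finset.mem_union_left _ hpS
  obtain ⟨t, ht⟩ := exists_tw_primes hp2 h (S₀ ∪ S₁) hpS' hur'
  refine ⟨t, fun n T => ?_⟩
  obtain ⟨qv, hinj, hq, hkill⟩ := ht n (T ∪ (S₀ ∪ S₁).image (fun q : Nat.Primes => (q : ℕ)))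
  have hnotS : ∀ i, qv i ∉ S₀ ∪ S₁ := fun i hi =>
    (hq i).1 (Finset.mem_union_right _ (Finset.mem_image_of_mem _ hi))
  refine ⟨qv, hinj, fun i => ⟨fun hi => (hq i).1 (Finset.mem_union_left _ hi),
    fun hi => hnotS i (Finset.mem_union_left _ hi), (hq i).2⟩, ?_⟩
  intro R hR hpR hscal Lp hLpB hLpZ hLpcard Λ A _ _ _ _ hΛ π rA J H
  have hcard : (Finset.univ.image qv).card = t := by
    rw [Finset.card_image_of_injective _ hinj, Finset.card_univ, Fintype.card_fin]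
  have hdisj : Disjoint (S₀ ∪ S₁) (Finset.univ.image qv) := by
    rw [Finset.disjoint_left]
    intro q hq1 hq2
    obtain ⟨i, -, rfl⟩ := Finset.mem_image.1 hq2
    exact hnotS i hq1
  have hQ : ∀ q ∈ Finset.univ.image qv, p ∣ (q : ℕ) - 1 ∧ ∃ φ : GQ,
      (primeLocalPlace q).IsFrobeniusAt φ (q : ℕ) ∧
      ∃ α β : k, α ≠ β ∧ (rbar φ).charpoly = (X - C α) * (X - C β) := fun q hq' => by
    obtain ⟨i, -, rfl⟩ := Finset.mem_image.1 hq'
    exact ⟨(dvd_pow_self p (Nat.succ_ne_zero n)).trans (hq i).2.1, (hq i).2.2⟩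
  have := (H.mono Finset.subset_union_left hdisj).exists_gens hp2 h hdisj hpS' hur' hQ hkill
    (hS₁ _ _ Finset.subset_union_right hdisj hpS' hur' hQ) (hR.trans Finset.subset_union_left) hpR
    hscal hLpB hLpZ hLpcard hΛ
  rwa [hcard] at this

end Fermat.Agent.S56
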