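import Fermat.Agent.S56.Loc.Flat
import Fermat.Agent.S56.Gen.Main

/-!
# S56 / Gen / FlatM : [FLAT-TAN] in MATRIX form for every `rbar`, and (GEN) with the flat condition at `p`.

* `flatTanM` : `Flat.FlatTanM p h2 rbar` (`∃ L`, `B¹ ≤ L ≤ Z¹`, `#L ≤ #k⁴`, containing the cocycles of all `Flat.FlatLift`s), without `GaloisRepAdic`.
* `exists_tw_gen_flat` : `exists_tw_gen` with `Lp` eliminated; the condition at `p` is `HasFlat (Ap p).valuation (matAct (Ip p) (pushRep φ rA))`.
-/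

set_option autoImplicit false
set_option linter.unusedSectionVars false

open ExtCitation Polynomial

namespace Fermat.Agent.S56

open CFT (levS levAll decomp Z1 B1 Qb)
open Font MulAction Gen

variable {p : ℕ} [Fact p.Prime] {k : Type} [Field k] [Finite k] [CharP k p]

/-- matrix form of `flatKer_of_isFlatAt` -/
theorem flatKer_of_hasFlat (r₁ : GQ →* M2 (DualNumber k))
    (hfl : Flat.HasFlat (Flat.Ap p).valuation (Flat.matAct (Flat.Ip p) r₁)) :
    FlatKer p ((r₁.comp (inert (pPrime p)).subtype).ker) := by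
  classical
  have : Finite (DualNumber k) := inferInstanceAs (Finite (k × k))
  have hp0 : ((p : ℕ) : DualNumber k) = 0 := by
    apply TrivSqZeroExt.ext
    · rw [TrivSqZeroExt.fst_natCast, CharP.cast_eq_zero, TrivSqZeroExt.fst_zero]
    · rw [TrivSqZeroExt.snd_natCast, TrivSqZeroExt.snd_zero]
  refine ⟨Fin 2 → DualNumber k, inferInstance, inferInstance,
    Flat.matAct (inert (pPrime p)) r₁, hfl, fun x => ?_, fun g hg => ?_⟩
  · funext i
    rw [Pi.smul_apply, nsmul_eq_mul, hp0, zero_mul, Pi.zero_apply]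
  · rw [MonoidHom.mem_ker] at hg ⊢
    show r₁ (g : GQ) = 1
    refine Matrix.ext fun i j => ?_
    have h1 := congrArg (fun f : AddMonoid.End (Fin 2 → DualNumber k) => f (Pi.single j 1) i) hg
    simpa [Matrix.one_apply, Pi.single_apply, eq_comm] using h1

/-- matrix form of `resLoc_coc_mem_Lfl` -/
theorem resLoc_coc_mem_Lfl_of_flatLift (h2 : (2 : k) ≠ 0) (rbar : GQ →* M2 k)
    (r₁ : GQ →* M2 (DualNumber k)) (h : Flat.FlatLift p rbar r₁) :
    resLoc k (pPrime p) (coc h2 r₁) ∈ Lfl p rbar := by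
  refine Or.inr ⟨resLoc_mem_Z1loc' _ (coc_mem_Z1 h2 levAll h.lift (exists_levAll_of_cont h.cont)) _,
    (r₁.comp (inert (pPrime p)).subtype).ker, flatKer_of_hasFlat r₁ h.flat, fun s hs => ?_⟩
  have h1 : r₁ (s : GQ) = 1 := hs
  refine ⟨by rw [← h.lift, h1, map_fst_one], ?_⟩
  rw [resLoc_apply, IP.coe_toD, coc, cocM, h1, map_snd_one, zero_mul, map_zero]

/-- **[FLAT-TAN], matrix form, when `rbar|_{D_p}` has no stable line** (copy of the end of `Flat/Irr/Main.lean`) -/
theorem flatTanM_of_noLine (hp2 : p ≠ 2) (h2 : (2 : k) ≠ 0) (rbar : GQ →* M2 k)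
    (hcont : GaloisFactorsThroughFiniteLevel rbar)
    (hdet : ∀ σ, (rbar σ).det = (chiK p k σ : k))
    (hsplit : ∀ σ, ∃ α β : k, (rbar σ).charpoly = (X - C α) * (X - C β))
    (hirr : NoLineAt p rbar) : Flat.FlatTanM p h2 rbar := by
  have hp : p.Prime := Fact.out
  obtain ⟨g₀, ψ, φ, x, y, hS⟩ := exists_irrStr rbar hcont hsplit hirr
  have he0 : 0 < p ^ 2 - 1 := by
    have : 2 ^ 2 ≤ p ^ 2 := Nat.pow_le_pow_left hp.two_le 2
    omega
  obtain ⟨π, hπ⟩ := IsAlgClosed.exists_pow_nat_eq ((p : ℕ) : Qb) he0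
  have hsm := adRep_smooth_levAll rbar hcont
  obtain ⟨hLurfin, hLurcard⟩ := card_Lur_le (adRep rbar) (pPrime p)
  rw [card_sl2] at hLurcard
  have hk1 : 1 ≤ Nat.card k := Nat.card_pos
  have h34 : Nat.card k ^ 3 ≤ Nat.card k ^ 4 := Nat.pow_le_pow_right hk1 (by norm_num)
  have hidx : (((stabilizer (IP p) π).index : ℕ) : k) ≠ 0 := by
    rw [(isTot_of_pow_eq (isSH_IP (p := p)) hπ).index]
    intro h0
    exact not_dvd_sq_sub_one ((CharP.cast_eq_zero_iff k p _).1 h0)
  by_cases hex : ∃ M : Subgroup (IP p), FlatKer p M ∧ ∀ s ∈ M, rbar (s : GQ) = 1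
  · obtain ⟨M₀, hM₀, hM₀r⟩ := hex
    have hcount : Finite ↥(Lfl p rbar) ∧ Nat.card ↥(Lfl p rbar) ≤ Nat.card k ^ 4 := by
      by_cases hne : ∃ c₀ ∈ Lfl p rbar, ∃ t ∈ stabilizer (IP p) π, c₀ (IP.toD t) ≠ 0
      · obtain ⟨c₀, hc₀, hne₀⟩ := hne
        have hc₀' : c₀ ∈ Z1loc (adRep rbar) (pPrime p) ∧ IsFl p rbar c₀ := by
          rcases hc₀ with rfl | h
          · obtain ⟨t, -, ht⟩ := hne₀
            exact absurd rfl ht
          · exact h
        obtain ⟨hfin, hcard⟩ := card_le_of_line (Lfl p rbar) (Lur (adRep rbar) (pPrime p)) c₀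
          (by
            rintro c (rfl | ⟨hc, hcF⟩)
            · exact ⟨0, by rw [zero_smul, sub_zero]; exact zero_mem _⟩
            · obtain ⟨a, ha⟩ := exists_smul_sub_zero_on hp2 hcont hdet hS hπ hc hcF hc₀'.1 hc₀'.2 hne₀
              exact ⟨a, mem_Lur_of_zero_on (adRep rbar)
                (sub_mem hc (Submodule.smul_mem _ a hc₀'.1)) _ hidx ha⟩)
        refine ⟨hfin, hcard.trans ?_⟩
        calc Nat.card k * Nat.card ↥(Lur (adRep rbar) (pPrime p)) ≤ Nat.card k * Nat.card k ^ 3 :=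
              Nat.mul_le_mul_left _ hLurcard
          _ = Nat.card k ^ 4 := by ring
      · push Not at hne
        have hle : Lfl p rbar ≤ Lur (adRep rbar) (pPrime p) := fun c hc =>
          mem_Lur_of_zero_on (adRep rbar) (Lfl_le_Z1loc rbar hc) _ hidx (hne c hc)
        have hinj : Function.Injective (Submodule.inclusion hle) := Submodule.inclusion_injective hle
        exact ⟨Finite.of_injective _ hinj,
          ((Nat.card_le_card_of_injective _ hinj).trans hLurcard).trans h34⟩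
    exact ⟨Lfl p rbar, B1loc_le_Lfl rbar hcont hM₀ hM₀r, Lfl_le_Z1loc rbar, hcount.1, hcount.2,
      fun r₁ hfl => resLoc_coc_mem_Lfl_of_flatLift h2 rbar r₁ hfl⟩
  · have hle : B1loc (adRep rbar) (pPrime p) ≤ Lur (adRep rbar) (pPrime p) :=
      B1loc_le_Lur _ hsm _
    have hinj : Function.Injective (Submodule.inclusion hle) := Submodule.inclusion_injective hle
    refine ⟨B1loc (adRep rbar) (pPrime p), le_rfl, B1loc_le_Z1loc _ hsm _,
      Finite.of_injective _ hinj,
      ((Nat.card_le_card_of_injective _ hinj).trans hLurcard).trans h34,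
      fun r₁ hfl => ?_⟩
    rcases resLoc_coc_mem_Lfl_of_flatLift h2 rbar r₁ hfl with h0 | ⟨-, M, hM, hMz⟩
    · rw [h0]; exact zero_mem _
    · exact absurd ⟨M, hM, fun s hs => (hMz s hs).1⟩ hex


/-- **[FLAT-TAN]**, matrix form. -/
theorem flatTanM (hp2 : p ≠ 2) (h2 : (2 : k) ≠ 0) (rbar : GQ →* M2 k)
    (hcont : GaloisFactorsThroughFiniteLevel rbar)
    (hdet : ∀ σ, (rbar σ).det = (chiK p k σ : k))
    (hsplit : ∀ σ, ∃ α β : k, (rbar σ).charpoly = (X - C α) * (X - C β)) :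
    Flat.FlatTanM p h2 rbar := by
  by_cases hred : ∃ w : Fin 2 → k, w ≠ 0 ∧
      ∀ σ ∈ decomp (pPrime p), ∃ c : k, (rbar σ).mulVec w = c • w
  · exact Flat.flatTanM_of_reducible hp2 h2 rbar hcont hdet hred
  · refine flatTanM_of_noLine hp2 h2 rbar hcont hdet hsplit (fun w hw => ?_)
    by_contra hcon
    push Not at hcon
    exact hred ⟨w, hw, hcon⟩

end Fermat.Agent.S56
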