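import Fermat.Agent.S56.Asm.Count

/-!
# S56 / Gen / Count : the Selmer count with the condition `0` at a set `R` of "hard" primes.

`R ⊆ S₀`, `p ∉ R`, `rbar|_{D_v}` scalar for `v ∈ R` (so `B¹(D_v, ad⁰) = 0` and `L_v := ⊥` is an admissible local condition).
`locFamR rbar Lp R` : `⊥` at `R`, `Lp` at `p`, `Lur` elsewhere.
[GW''] (`GWStatement`, arbitrary local conditions at `S₀`) + the local bounds give
`#S̃el * #k^(3 #R) ≤ #k^(#Q + 3)`    (`S̃el` = Selmer COCYCLES; `#B¹ = #k³`), i.e. `h¹_L ≤ #Q - 3 #R`.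
-/

set_option autoImplicit false

open ExtCitation Polynomial IsLocalRing

namespace Fermat.Agent.S56

open CFT (levS levAll decomp Z1 B1 Qb IsSmooth)

variable {k : Type} [Field k] [Finite k] {p : ℕ} [Fact p.Prime] [CharP k p]

open Classical in
/-- the family of local conditions: `⊥` at `R`, `Lp` at `p`, `Lur` elsewhere -/
noncomputable def locFamR (rbar : GQ →* M2 k) (Lp : Submodule k (↥(decomp (pPrime p)) → sl2 k))
    (R : Finset Nat.Primes) (v : Nat.Primes) : Submodule k (↥(decomp v) → sl2 k) :=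
  if v ∈ R then ⊥ else locFam rbar Lp v

omit [Finite k] in
lemma locFamR_mem (rbar : GQ →* M2 k) (Lp : Submodule k (↥(decomp (pPrime p)) → sl2 k))
    {R : Finset Nat.Primes} {v : Nat.Primes} (hv : v ∈ R) : locFamR rbar Lp R v = ⊥ := by
  simp [locFamR, hv]

omit [Finite k] in
lemma locFamR_not_mem (rbar : GQ →* M2 k) (Lp : Submodule k (↥(decomp (pPrime p)) → sl2 k))
    {R : Finset Nat.Primes} {v : Nat.Primes} (hv : v ∉ R) :
    locFamR rbar Lp R v = locFam rbar Lp v := by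
  simp [locFamR, hv]

/-- `rbar` is scalar on the decomposition group at `v` -/
def ScalarAt (rbar : GQ →* M2 k) (v : Nat.Primes) : Prop :=
  ∀ σ ∈ decomp v, ∃ c : k, rbar σ = c • (1 : M2 k)

omit [Finite k] in
theorem ScalarAt.adRep_apply {rbar : GQ →* M2 k} {v : Nat.Primes} (h : ScalarAt rbar v) {σ : GQ}
    (hσ : σ ∈ decomp v) (w : sl2 k) : adRep rbar σ w = w := by
  obtain ⟨c, hc⟩ := h σ hσ
  apply Subtype.ext
  have h1 : rbar σ * rbar σ⁻¹ = 1 := by rw [← map_mul, mul_inv_cancel, map_one]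
  rw [adRep_apply_coe]
  calc rbar σ * (w : M2 k) * rbar σ⁻¹ = (w : M2 k) * (rbar σ * rbar σ⁻¹) := by
        rw [hc, Matrix.smul_mul, one_mul, Matrix.smul_mul, Matrix.smul_mul, one_mul,
          Matrix.mul_smul]
    _ = (w : M2 k) := by rw [h1, mul_one]

omit [Finite k] in
theorem ScalarAt.B1loc_eq_bot {rbar : GQ →* M2 k} {v : Nat.Primes} (h : ScalarAt rbar v) :
    B1loc (adRep rbar) v = ⊥ := by
  rw [eq_bot_iff]
  rintro _ ⟨w, rfl⟩
  rw [Submodule.mem_bot]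
  funext σ
  rw [CFT.d01_apply]
  show adRep rbar (σ : GQ) w - w = 0
  rw [h.adRep_apply σ.2, sub_self]

/-- the arithmetic -/
theorem count_aux_hard (K X s t a : ℕ) (hK : 0 < K) (hs : a + 1 ≤ s)
    (h : X * (K ^ 3) ^ (s + t) * K ≤ (K ^ 4 * (K ^ 3) ^ (s - 1 - a)) * (K ^ 4) ^ t * K ^ 3) :
    X * K ^ (3 * a) ≤ K ^ (t + 3) := by
  obtain ⟨s', rfl⟩ : ∃ s', s = s' + (a + 1) := ⟨s - (a + 1), by omega⟩
  have e1 : X * (K ^ 3) ^ (s' + (a + 1) + t) * K = X * K ^ (3 * a) * K ^ (3 * s' + 3 * t + 4) := by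
    rw [← pow_mul, mul_assoc, ← pow_succ, mul_assoc, ← pow_add]; congr 2; ring
  have e2 : (K ^ 4 * (K ^ 3) ^ (s' + (a + 1) - 1 - a)) * (K ^ 4) ^ t * K ^ 3 =
      K ^ (t + 3) * K ^ (3 * s' + 3 * t + 4) := by
    have : s' + (a + 1) - 1 - a = s' := by omega
    rw [this, ← pow_mul, ← pow_mul, ← pow_add, ← pow_add, ← pow_add, ← pow_add]
    congr 1; ring
  rw [e1, e2] at h
  exact Nat.le_of_mul_le_mul_right h (pow_pos hK _)

/-- **[GEN-COUNT]** -/
theorem card_Sel_hard_le (hp2 : p ≠ 2) {rbar : GQ →* M2 k} (h : RbarHyp p rbar)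
    (S₀ Q R : Finset Nat.Primes) (hdisj : Disjoint S₀ Q) (hpS : pPrime p ∈ S₀)
    (hur : UnramOutside rbar S₀)
    (hQ : ∀ q ∈ Q, p ∣ (q : ℕ) - 1 ∧ ∃ φ : GQ, (primeLocalPlace q).IsFrobeniusAt φ (q : ℕ) ∧
      ∃ α β : k, α ≠ β ∧ (rbar φ).charpoly = (X - C α) * (X - C β))
    (hkill : ∀ b ∈ Z1 (levS (S₀ ∪ Q)) (adTw p rbar),
      (∀ q ∈ Q, resLoc k q b ∈ B1loc (adTw p rbar) q) → b ∈ B1 (adTw p rbar))
    (hGW : GWStatement p rbar S₀ Q)
    (hR : R ⊆ S₀) (hpR : pPrime p ∉ R) (hscal : ∀ v ∈ R, ScalarAt rbar v)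
    (Lp : Submodule k (↥(decomp (pPrime p)) → sl2 k))
    (hLpB : B1loc (adRep rbar) (pPrime p) ≤ Lp) (hLpZ : Lp ≤ Z1loc (adRep rbar) (pPrime p))
    (hLpcard : Nat.card ↥Lp ≤ Nat.card k ^ 4) :
    Finite ↥(Sel (S₀ ∪ Q) S₀ (adRep rbar) (locFamR rbar Lp R)) ∧
      Nat.card ↥(Sel (S₀ ∪ Q) S₀ (adRep rbar) (locFamR rbar Lp R)) * Nat.card k ^ (3 * R.card) ≤
        Nat.card k ^ (Q.card + 3) := by
  classical
  have h2 : (2 : k) ≠ 0 := two_ne_zero_of_charP p hp2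
  have hur' : UnramOutside rbar (S₀ ∪ Q) := hur.mono Finset.subset_union_left
  have hsm : IsSmooth (levS (S₀ ∪ Q)) (adRep rbar) := adRep_smooth h.cont _ hur'
  have hsmA : IsSmooth levAll (adRep rbar) := isSmooth_levAll_of_levS hsm
  have hfinW : Finite ↥(sl2 k) := Module.finite_of_finite k
  obtain ⟨c, hc, hχ, hfin, hle⟩ := hGW (locFamR rbar Lp R)
    (fun v _ => by
      by_cases hvR : v ∈ R
      · rw [locFamR_mem rbar Lp hvR, (hscal v hvR).B1loc_eq_bot]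
      rw [locFamR_not_mem rbar Lp hvR]
      by_cases hv : v = pPrime p
      · subst hv; rw [locFam_p]; exact hLpB
      · rw [locFam_ne rbar Lp hv]; exact B1loc_le_Lur _ hsmA v)
    (fun v _ => by
      by_cases hvR : v ∈ R
      · rw [locFamR_mem rbar Lp hvR]; exact bot_le
      rw [locFamR_not_mem rbar Lp hvR]
      by_cases hv : v = pPrime p
      · subst hv; rw [locFam_p]; exact hLpZ
      · rw [locFam_ne rbar Lp hv]; exact Lur_le_Z1loc _ v)
    hkill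
  refine ⟨hfin, ?_⟩
  have hK : 0 < Nat.card k := Nat.card_pos
  rw [card_sl2, card_fixed_conj hp2 h.det c hc hχ] at hle
  have hRe : R ⊆ S₀.erase (pPrime p) := fun v hv =>
    Finset.mem_erase.2 ⟨fun e => hpR (e ▸ hv), hR hv⟩
  have hS : ∏ v ∈ S₀, Nat.card ↥(locFamR rbar Lp R v) ≤
      Nat.card k ^ 4 * (Nat.card k ^ 3) ^ (S₀.card - 1 - R.card) := by
    rw [← Finset.mul_prod_erase S₀ _ hpS, locFamR_not_mem rbar Lp hpR, locFam_p,
      ← Finset.card_erase_of_mem hpS, ← Finset.card_sdiff_of_subset hRe,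
      ← Finset.prod_sdiff hRe]
    refine Nat.mul_le_mul hLpcard ?_
    have h1 : ∏ v ∈ R, Nat.card ↥(locFamR rbar Lp R v) = 1 := by
      refine Finset.prod_eq_one fun v hv => ?_
      rw [locFamR_mem rbar Lp hv]
      exact Nat.card_unique
    rw [h1, mul_one]
    refine Finset.prod_le_pow_card _ _ _ fun v hv => ?_
    obtain ⟨hv1, hv2⟩ := Finset.mem_sdiff.1 hv
    rw [locFamR_not_mem rbar Lp hv2, locFam_ne rbar Lp (Finset.ne_of_mem_erase hv1), ← card_sl2]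
    exact (card_Lur_le (adRep rbar) v).2
  have hQc : ∏ q ∈ Q, Nat.card ↥(Z1loc (adRep rbar) q) ≤ (Nat.card k ^ 4) ^ Q.card := by
    refine Finset.prod_le_pow_card _ _ _ fun q hq => ?_
    obtain ⟨hq1, φ, hφ, α, β, hαβ, hchar⟩ := hQ q hq
    have hqS : q ∉ S₀ := fun hq' => (Finset.disjoint_left.1 hdisj hq') hq
    have hqp : (q : ℕ) ≠ p := fun e => hqS (by
      have : q = pPrime p := Subtype.ext e
      rw [this]; exact hpS)
    exact (card_Z1loc_le rbar h.cont q hqp hq1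
      (hur q hqS _ (liesOverPrime_primeLocalPlace q)) φ hφ α β hαβ hchar).2
  have hcardR : R.card + 1 ≤ S₀.card := by
    have := Finset.card_le_card hRe
    rw [Finset.card_erase_of_mem hpS] at this
    have h0 : 0 < S₀.card := Finset.card_pos.2 ⟨_, hpS⟩
    omega
  refine count_aux_hard (Nat.card k) _ S₀.card Q.card R.card hK hcardR (hle.trans ?_)
  exact Nat.mul_le_mul_right _ (Nat.mul_le_mul hS hQc)

end Fermat.Agent.S56
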