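import Fermat.Agent.S56.Gen.Tan
import Fermat.Agent.S56.Gen.Count
import Fermat.Agent.S56.Tame.Main

/-!
# S56 / Gen / Loc : how to check the local conditions of `locFamR` for `pushRep φ rA`   (matrix language).

* `exists_local_gens` ([GEN2]) : `f : GQ →* M` continuous, `f (I_v)` of exponent prime to `v` ⟹ `f (D_v)` is generated by `f φ` (any Frobenius) and `f σ₀`.
* `pow_eq_one_of_nilpotent` : `X ≡ 1 mod m`, `p ∈ m`, `m^(n+1) = 0` ⟹ `X^(p^n) = 1`.
* `ScalarMod Λ J X` : `X` is congruent modulo `J` to a scalar matrix with entry in `Λ`; stable under products.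
* `resLoc_coc_eq_zero` : `rA σ` scalar mod `J` on `D_v` ⟹ the cocycle of `pushRep φ rA` vanishes on `D_v` (`φ J = 0`).
* `resLoc_coc_mem_Lur_of_trivial`, `resLoc_coc_mem_Lur_of_unip` : matrix versions of the two ways to land in `Lur`.
-/

set_option autoImplicit false

open ExtCitation Polynomial

namespace Fermat.Agent.S56

open CFT (levS levAll decomp Z1 B1 Qb)
open Gen

/-- **[GEN2]** the image of a decomposition group is generated by a Frobenius and one inertia element. -/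
theorem exists_local_gens {M : Type} [Monoid M] (f : GQ →* M)
    (hcont : GaloisFactorsThroughFiniteLevel f) (v : Nat.Primes) (N : ℕ)
    (hN : Nat.Coprime N (v : ℕ)) (htors : ∀ σ ∈ inert v, f σ ^ N = 1) :
    ∃ σ₀ ∈ inert v, (∀ σ ∈ inert v, ∃ b : ℕ, f σ = f σ₀ ^ b) ∧
      ∀ φ : GQ, (primeLocalPlace v).IsFrobeniusAt φ (v : ℕ) →
        ∀ σ ∈ decomp v, ∃ a b : ℕ, f σ = f φ ^ a * f σ₀ ^ b := by
  have hA := liesOverPrime_primeLocalPlace v
  obtain ⟨L, hLfin, hL⟩ := hcont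
  obtain ⟨σ₀, hσ₀⟩ := tame_cyclic v.2 hA (f.comp (inert v).subtype)
    ⟨L, hLfin, fun σ hσ => hL σ hσ⟩ N hN (fun σ => htors σ σ.2)
  refine ⟨σ₀, σ₀.2, fun σ hσ => hσ₀ ⟨σ, hσ⟩, fun φ hφ σ hσ => ?_⟩
  obtain ⟨a, τ, hτ, hστ⟩ := exists_frob_pow_mul_inertia v.2 hA hφ L hσ
  obtain ⟨b, hb⟩ := hσ₀ ⟨τ, hτ⟩
  refine ⟨a, b, ?_⟩
  have h1 : f ((φ ^ a * τ)⁻¹ * σ) = 1 := by
    refine hL _ fun x hx => ?_
    rw [AlgEquiv.mul_apply, hστ x hx]
    exact (φ ^ a * τ).symm_apply_apply x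
  have h2 : σ = (φ ^ a * τ) * ((φ ^ a * τ)⁻¹ * σ) := by rw [mul_inv_cancel_left]
  have hb' : f τ = f σ₀ ^ b := hb
  rw [h2, map_mul, h1, mul_one, map_mul, map_pow, hb']

section Nilp

variable {A : Type} [CommRing A]

/-- `(1 + Y)^n = 1 + n Y` if `Y² = 0`. -/
theorem one_add_pow_of_sq_zero {E : Type} [Ring E] (Y : E) (hY : Y * Y = 0) (n : ℕ) :
    (1 + Y) ^ n = 1 + n • Y := by
  induction n with
  | zero => simp
  | succ n ih =>
    rw [pow_succ, ih, mul_add, mul_one, add_mul, one_mul, smul_mul_assoc, hY, smul_zero, add_zero,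
      succ_nsmul]
    abel

theorem pow_prime_congr {m : Ideal A} {p : ℕ} (hp : (p : A) ∈ m) {j : ℕ} (hj : 1 ≤ j) {X : M2 A}
    (hX : ∀ i l, (X - 1) i l ∈ m ^ j) : ∀ i l, (X ^ p - 1) i l ∈ m ^ (j + 1) := by
  let f : M2 A →+* M2 (A ⧸ m ^ (j + 1)) := (Ideal.Quotient.mk (m ^ (j + 1))).mapMatrix
  have hf : ∀ (Z : M2 A) i l, f Z i l = Ideal.Quotient.mk (m ^ (j + 1)) (Z i l) := fun _ _ _ => rfl
  set Y := f (X - 1) with hY
  have h2j : m ^ j * m ^ j ≤ m ^ (j + 1) := by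
    rw [← pow_add]
    exact Ideal.pow_le_pow_right (by omega)
  have hYY : Y * Y = 0 := by
    rw [hY, ← map_mul]
    ext i l
    rw [hf, Matrix.zero_apply, Ideal.Quotient.eq_zero_iff_mem, Matrix.mul_apply]
    exact Ideal.sum_mem _ fun t _ => h2j (Ideal.mul_mem_mul (hX i t) (hX t l))
  have hpY : p • Y = 0 := by
    ext i l
    rw [Matrix.smul_apply, hY, hf, Matrix.zero_apply, nsmul_eq_mul, ← map_natCast
      (Ideal.Quotient.mk (m ^ (j + 1))), ← map_mul, Ideal.Quotient.eq_zero_iff_mem, pow_succ',]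
    exact Ideal.mul_mem_mul hp (hX i l)
  have h1 : f X = 1 + Y := by rw [hY, map_sub, map_one]; abel
  have h2 : f (X ^ p - 1) = 0 := by
    rw [map_sub, map_pow, map_one, h1, one_add_pow_of_sq_zero Y hYY, hpY, add_zero, sub_self]
  intro i l
  rw [← Ideal.Quotient.eq_zero_iff_mem, ← hf, h2, Matrix.zero_apply]

theorem pow_prime_pow_congr {m : Ideal A} {p : ℕ} (hp : (p : A) ∈ m) {X : M2 A}
    (hX : ∀ i l, (X - 1) i l ∈ m) (n : ℕ) : ∀ i l, (X ^ (p ^ n) - 1) i l ∈ m ^ (n + 1) := by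
  induction n with
  | zero => simpa using hX
  | succ n ih =>
    have h := pow_prime_congr hp (Nat.succ_le_succ (Nat.zero_le n)) ih
    rwa [← pow_mul, ← pow_succ] at h

/-- the kernel of reduction is a `p`-group. -/
theorem pow_eq_one_of_nilpotent {m : Ideal A} {p : ℕ} (hp : (p : A) ∈ m) {n : ℕ}
    (hn : m ^ (n + 1) = ⊥) {X : M2 A} (hX : ∀ i l, (X - 1) i l ∈ m) : X ^ (p ^ n) = 1 := by
  have h := pow_prime_pow_congr hp hX n
  rw [hn] at h
  rw [← sub_eq_zero]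
  ext i l
  exact h i l

end Nilp

section Scalar

variable {Λ A : Type} [CommRing Λ] [CommRing A] [Algebra Λ A]

/-- `X` is congruent modulo `J` to a scalar matrix with entry in `Λ`. -/
def ScalarMod (Λ : Type) {A : Type} [CommRing Λ] [CommRing A] [Algebra Λ A] (J : Ideal A)
    (X : M2 A) : Prop :=
  ∃ c : Λ, ∀ i l, X i l - (algebraMap Λ A c • (1 : M2 A)) i l ∈ J

theorem scalarMod_iff {J : Ideal A} {X : M2 A} : ScalarMod Λ J X ↔
    ∃ c : Λ, (Ideal.Quotient.mk J).mapMatrix X =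
      Ideal.Quotient.mk J (algebraMap Λ A c) • (1 : M2 (A ⧸ J)) := by
  refine exists_congr fun c => ?_
  have h1 : Ideal.Quotient.mk J (algebraMap Λ A c) • (1 : M2 (A ⧸ J)) =
      (Ideal.Quotient.mk J).mapMatrix (algebraMap Λ A c • (1 : M2 A)) := by
    ext i l
    show Ideal.Quotient.mk J (algebraMap Λ A c) * (1 : M2 (A ⧸ J)) i l =
      Ideal.Quotient.mk J (algebraMap Λ A c * (1 : M2 A) i l)
    by_cases hil : i = l
    · rw [hil, Matrix.one_apply_eq, Matrix.one_apply_eq, mul_one, mul_one]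
    · rw [Matrix.one_apply_ne hil, Matrix.one_apply_ne hil, mul_zero, mul_zero, map_zero]
  rw [h1]
  constructor
  · intro h
    ext i l
    exact Ideal.Quotient.eq.2 (h i l)
  · intro h i l
    exact Ideal.Quotient.eq.1 (congrFun (congrFun h i) l)

theorem ScalarMod.one (J : Ideal A) : ScalarMod Λ J (1 : M2 A) :=
  ⟨1, fun i l => by rw [map_one, one_smul, sub_self]; exact J.zero_mem⟩

theorem ScalarMod.mul {J : Ideal A} {X Y : M2 A} (hX : ScalarMod Λ J X) (hY : ScalarMod Λ J Y) :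
    ScalarMod Λ J (X * Y) := by
  rw [scalarMod_iff] at hX hY ⊢
  obtain ⟨c, hc⟩ := hX
  obtain ⟨d, hd⟩ := hY
  refine ⟨c * d, ?_⟩
  rw [map_mul, hc, hd, smul_mul_smul_comm, one_mul, map_mul, map_mul]

theorem ScalarMod.pow {J : Ideal A} {X : M2 A} (hX : ScalarMod Λ J X) (n : ℕ) :
    ScalarMod Λ J (X ^ n) := by
  induction n with
  | zero => rw [pow_zero]; exact ScalarMod.one J
  | succ n ih => rw [pow_succ]; exact ih.mul hX

end Scalar

variable {k : Type} [Field k] {Λ A : Type} [CommRing Λ] [Algebra Λ k] [CommRing A] [Algebra Λ A]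

/-- a scalar matrix modulo `J` is pushed to a constant matrix. -/
theorem map_snd_pushRep_eq_zero {J : Ideal A} {φ : A →ₐ[Λ] DualNumber k} (hφ : ∀ a ∈ J, φ a = 0)
    {rA : GQ →* M2 A} {σ : GQ} (h : ScalarMod Λ J (rA σ)) :
    (pushRep φ rA σ).map TrivSqZeroExt.snd = 0 := by
  obtain ⟨c, hc⟩ := h
  ext i l
  have h1 := hφ _ (hc i l)
  rw [map_sub, sub_eq_zero] at h1
  show (φ (rA σ i l)).snd = 0
  rw [h1, Matrix.smul_apply, smul_eq_mul, map_mul, AlgHom.commutes]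
  by_cases hil : i = l
  · rw [hil, Matrix.one_apply_eq, map_one, mul_one]; rfl
  · rw [Matrix.one_apply_ne hil, map_zero, mul_zero]; rfl

/-- the condition `⊥` at a hard prime. -/
theorem resLoc_coc_eq_zero (h2 : (2 : k) ≠ 0) {J : Ideal A} {φ : A →ₐ[Λ] DualNumber k}
    (hφ : ∀ a ∈ J, φ a = 0) {rA : GQ →* M2 A} (v : Nat.Primes)
    (h : ∀ σ ∈ decomp v, ScalarMod Λ J (rA σ)) : resLoc k v (coc h2 (pushRep φ rA)) = 0 := by
  funext σ
  rw [resLoc_apply, coc, cocM, map_snd_pushRep_eq_zero hφ (h σ σ.2), zero_mul, map_zero]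
  rfl

/-- from a level of `levAll` -/
theorem exists_levAll_of_cont {M : Type} [Monoid M] {f : GQ →* M}
    (hcont : GaloisFactorsThroughFiniteLevel f) : ∃ U ∈ levAll.carrier, ∀ s ∈ U, f s = 1 := by
  obtain ⟨L, hLfin, hL⟩ := hcont
  refine ⟨(IntermediateField.normalClosure ℚ L Qb).fixingSubgroup,
    ⟨_, normalClosure.is_finiteDimensional ℚ L Qb, normalClosure.normal ℚ L Qb, rfl⟩,
    fun s hs => hL s (fun x hx => ?_)⟩
  exact hs ⟨x, IntermediateField.le_normalClosure L hx⟩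

/-- matrix version of `resLoc_coc_mem_Lur_of_unram` -/
theorem resLoc_coc_mem_Lur_of_trivial (h2 : (2 : k) ≠ 0) (rbar : GQ →* M2 k) (q : Nat.Primes)
    (r₁ : GQ →* M2 (DualNumber k)) (hcont : GaloisFactorsThroughFiniteLevel r₁)
    (hl : IsLift rbar r₁) (hu : ∀ σ ∈ inert q, r₁ σ = 1) :
    resLoc k q (coc h2 r₁) ∈ Lur (adRep rbar) q := by
  refine ⟨resLoc_mem_Z1loc' _ (coc_mem_Z1 h2 levAll hl (exists_levAll_of_cont hcont)) q, 0,
    fun σ hσ => ?_⟩
  have h3 : cocM r₁ (σ : GQ) = 0 := by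
    rw [cocM, hu σ hσ, map_snd_one, zero_mul]
  rw [resLoc_apply, coc, h3, map_zero, map_zero, sub_zero]

/-- matrix version of `resLoc_coc_mem_Lur` ([LOC-MIN]) -/
theorem resLoc_coc_mem_Lur_of_unip {p : ℕ} [Fact p.Prime] [Finite k] [CharP k p] (h2 : (2 : k) ≠ 0)
    (rbar : GQ →* M2 k) (q : Nat.Primes) (hqp : (q : ℕ) ≠ p) (hram : ∃ σ ∈ inert q, rbar σ ≠ 1)
    (r₁ : GQ →* M2 (DualNumber k)) (hcont : GaloisFactorsThroughFiniteLevel r₁)
    (hl : IsLift rbar r₁) (hchar : ∀ σ ∈ inert q, (r₁ σ).charpoly = (X - 1) ^ 2) :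
    resLoc k q (coc h2 r₁) ∈ Lur (adRep rbar) q := by
  have hp : p.Prime := Fact.out
  have hA := liesOverPrime_primeLocalPlace q
  have hcop : Nat.Coprime p q := (Nat.coprime_primes hp q.2).2 (Ne.symm hqp)
  refine ⟨resLoc_mem_Z1loc' _ (coc_mem_Z1 h2 levAll hl (exists_levAll_of_cont hcont)) q, ?_⟩
  obtain ⟨L, hLfin, hL⟩ := hcont
  obtain ⟨σ₀, hσ₀⟩ := tame_cyclic q.2 hA (r₁.comp (inert q).subtype)
    ⟨L, hLfin, fun σ hσ => hL σ hσ⟩ p hcop (fun σ => LocMin.pow_p_eq_one _ (hchar σ σ.2))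
  have hpow : ∀ σ ∈ inert q, ∃ n : ℕ, r₁ σ = r₁ σ₀ ^ n := fun σ hσ => hσ₀ ⟨σ, hσ⟩
  have hbar : ∀ (σ : GQ) (n : ℕ), r₁ σ = r₁ σ₀ ^ n → rbar σ = rbar σ₀ ^ n := by
    intro σ n h
    rw [← hl σ, h, ← map_pow, hl, map_pow]
  have hne : rbar σ₀ ≠ 1 := by
    intro h1
    obtain ⟨σ, hσ, hσ1⟩ := hram
    obtain ⟨n, hn⟩ := hpow σ hσ
    rw [hbar σ n hn, h1, one_pow] at hσ1
    exact hσ1 rfl
  obtain ⟨m, hm'⟩ := exists_conj_unipotent (rbar σ₀) (r₁ σ₀) (hl σ₀) hne (hchar σ₀ σ₀.2)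
  change onePlus m * _ = _ * onePlus m at hm'
  have hinl : ∀ (a : M2 k) (n : ℕ), (a ^ n).map (TrivSqZeroExt.inl : k → DualNumber k) =
      (a.map (TrivSqZeroExt.inl : k → DualNumber k)) ^ n := fun a n =>
    map_pow (TrivSqZeroExt.inlHom k k).mapMatrix a n
  have hconj : ∀ n : ℕ, onePlus m * ((rbar σ₀).map (TrivSqZeroExt.inl : k → DualNumber k)) ^ n =
      r₁ σ₀ ^ n * onePlus m := by
    intro n
    induction n with
    | zero => simp
    | succ n ih => rw [pow_succ, ← mul_assoc, ih, mul_assoc, hm', pow_succ, mul_assoc]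
  refine ⟨- toSl2 h2 m, fun σ hσ => ?_⟩
  obtain ⟨n, hn⟩ := hpow σ hσ
  have h1 : onePlus m * (rbar σ).map (TrivSqZeroExt.inl : k → DualNumber k) = r₁ σ * onePlus m := by
    rw [hbar σ n hn, hinl, hconj, hn]
  have h3 := congrArg (fun X : M2 (DualNumber k) => X.map TrivSqZeroExt.snd) h1
  simp only [map_snd_mul, map_fst_onePlus, map_snd_onePlus, map_fst_map_inl, map_snd_map_inl,
    mul_zero, zero_add, mul_one, hl (σ : GQ)] at h3
  have h4 : cocM r₁ σ = - (adFull rbar σ m - m) := by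
    have e : (r₁ σ).map TrivSqZeroExt.snd = m * rbar σ - rbar σ * m := by
      rw [h3]; abel
    rw [cocM, e, hl, adFull_apply, sub_mul, mul_assoc m, rbar_mul_inv, mul_one]
    abel
  rw [resLoc_apply, coc, h4, map_neg, map_sub, toSl2_adFull, map_neg]
  abel

end Fermat.Agent.S56
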