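import Fermat.Agent.S56.Gen.Alg
import Fermat.Agent.S56.TD.Coc

/-!
# S56 / Gen / Tan : tangent vectors of a ring generated by traces inject into `H¹`.

`A` a `Λ`-algebra, `π : A →ₐ[Λ] k`, `rA : GQ →* M2 A` lifting `rbar`, `det rA σ ∈ Λ`, `A = Λ[tr rA σ]`.
For `φ ∈ TanSet π J` put `r_φ := S53.mapRep φ rA` (a lift of `rbar` to `k[ε]` with constant determinant), `c_φ := coc r_φ`.
If `c_φ - c_φ' ∈ B¹` then `r_φ`, `r_φ'` are conjugate (`exists_conj_of_sub_mem_B1`), so they have the same traces, so `φ = φ'`.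
Hence `(φ, w) ↦ c_φ + ∂ w` is injective.
-/

set_option autoImplicit false

namespace Fermat.Agent.S56

open CFT (levS levAll decomp Z1 B1 d12 d01)
open Gen

variable {k : Type} [Field k] {Λ A : Type} [CommRing Λ] [Algebra Λ k] [CommRing A] [Algebra Λ A]

/-- the push-forward of `rA` along a tangent vector -/
noncomputable abbrev pushRep (φ : A →ₐ[Λ] DualNumber k) (rA : GQ →* M2 A) :
    GQ →* M2 (DualNumber k) := S53.mapRep (φ : A →+* DualNumber k) rA

theorem isLift_pushRep {rbar : GQ →* M2 k} {π : A →ₐ[Λ] k} {rA : GQ →* M2 A}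
    (hlift : ∀ σ, (rA σ).map π = rbar σ) {φ : A →ₐ[Λ] DualNumber k}
    (hφ : ∀ a, (φ a).fst = π a) : IsLift rbar (pushRep φ rA) := by
  intro σ
  rw [← hlift σ]
  ext i j
  exact hφ _

theorem det_pushRep {rbar : GQ →* M2 k} {π : A →ₐ[Λ] k} {rA : GQ →* M2 A}
    (hlift : ∀ σ, (rA σ).map π = rbar σ) (hdet : ∀ σ, ∃ c : Λ, (rA σ).det = algebraMap Λ A c)
    (φ : A →ₐ[Λ] DualNumber k) (σ : GQ) :
    (pushRep φ rA σ).det = TrivSqZeroExt.inl (rbar σ).det := by
  obtain ⟨c, hc⟩ := hdet σ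
  have h1 : (pushRep φ rA σ).det = φ (rA σ).det :=
    (RingHom.map_det (φ : A →+* DualNumber k) (rA σ)).symm
  have h2 : (rbar σ).det = π (rA σ).det := by
    rw [← hlift σ]
    exact (RingHom.map_det (π : A →+* k) (rA σ)).symm
  rw [h1, h2, hc, AlgHom.commutes, AlgHom.commutes]
  rfl

theorem trace_pushRep (φ : A →ₐ[Λ] DualNumber k) (rA : GQ →* M2 A) (σ : GQ) :
    (pushRep φ rA σ).trace = φ (rA σ).trace := by
  rw [Matrix.trace_fin_two, Matrix.trace_fin_two, map_add]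
  rfl

theorem pushRep_eq_one (φ : A →ₐ[Λ] DualNumber k) {rA : GQ →* M2 A} {s : GQ} (hs : rA s = 1) :
    pushRep φ rA s = 1 := by
  show (φ : A →+* DualNumber k).mapMatrix (rA s) = 1
  rw [hs, map_one]

/-- **[GEN-TAN]** -/
theorem card_tanSet_mul_le (h2 : (2 : k) ≠ 0) (rbar : GQ →* M2 k) (π : A →ₐ[Λ] k)
    (rA : GQ →* M2 A) (hlift : ∀ σ, (rA σ).map π = rbar σ)
    (hdet : ∀ σ, ∃ c : Λ, (rA σ).det = algebraMap Λ A c)
    (htr : Algebra.adjoin Λ (Set.range fun σ => (rA σ).trace) = ⊤) (J : Ideal A)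
    (X : Submodule k (GQ → sl2 k)) (hfin : Finite ↥X) (hB : B1 (adRep rbar) ≤ X)
    (h0 : ∀ w, (∀ g, adRep rbar g w = w) → w = 0)
    (hX : ∀ φ ∈ TanSet π J, coc h2 (pushRep φ rA) ∈ X) :
    (TanSet π J).Finite ∧ Nat.card ↥(TanSet π J) * Nat.card ↥(sl2 k) ≤ Nat.card ↥X := by
  classical
  have hkey : ∀ φ ∈ TanSet π J, ∀ φ' ∈ TanSet π J,
      coc h2 (pushRep φ rA) - coc h2 (pushRep φ' rA) ∈ B1 (adRep rbar) → φ = φ' := by
    intro φ hφ φ' hφ' hsub
    obtain ⟨M, hM⟩ := exists_conj_of_sub_mem_B1 h2 (isLift_pushRep hlift hφ.1)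
      (isLift_pushRep hlift hφ'.1) (det_pushRep hlift hdet φ) (det_pushRep hlift hdet φ') hsub
    refine AlgHom.ext_of_adjoin_eq_top htr ?_
    rintro _ ⟨σ, rfl⟩
    show φ (rA σ).trace = φ' (rA σ).trace
    rw [← trace_pushRep, ← trace_pushRep]
    have h1 : pushRep φ rA σ = ((M⁻¹ : (M2 (DualNumber k))ˣ) : M2 (DualNumber k)) *
        (pushRep φ' rA σ * (M : M2 (DualNumber k))) := by
      rw [← hM σ, ← mul_assoc, Units.inv_mul, one_mul]
    rw [h1, Matrix.trace_mul_comm, mul_assoc, Units.mul_inv, mul_one]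
  let F : ↥(TanSet π J) × ↥(sl2 k) → ↥X :=
    fun x => ⟨coc h2 (pushRep (x.1 : A →ₐ[Λ] DualNumber k) rA) + d01 (adRep rbar) x.2,
      X.add_mem (hX _ x.1.2) (hB (LinearMap.mem_range_self _ _))⟩
  have hF : Function.Injective F := by
    rintro ⟨φ, w⟩ ⟨φ', w'⟩ h
    have h5 : coc h2 (pushRep (φ : A →ₐ[Λ] DualNumber k) rA) + d01 (adRep rbar) w =
        coc h2 (pushRep (φ' : A →ₐ[Λ] DualNumber k) rA) + d01 (adRep rbar) w' :=
      congrArg Subtype.val h
    have h6 : coc h2 (pushRep (φ : A →ₐ[Λ] DualNumber k) rA) -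
        coc h2 (pushRep (φ' : A →ₐ[Λ] DualNumber k) rA) = d01 (adRep rbar) (w' - w) := by
      rw [map_sub, sub_eq_sub_iff_add_eq_add, h5, add_comm]
    have h7 : φ = φ' := Subtype.ext (hkey _ φ.2 _ φ'.2 (h6 ▸ LinearMap.mem_range_self _ _))
    subst h7
    rw [sub_self] at h6
    have h8 : w' - w = 0 := by
      apply h0
      intro g
      have := congrFun h6 g
      rw [CFT.d01_apply, Pi.zero_apply] at this
      exact (sub_eq_zero.mp this.symm)
    rw [sub_eq_zero.mp h8]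
  have hfinP : Finite (↥(TanSet π J) × ↥(sl2 k)) := Finite.of_injective F hF
  have hfinT : Finite ↥(TanSet π J) :=
    Finite.of_injective (fun φ : ↥(TanSet π J) => ((φ, 0) : ↥(TanSet π J) × ↥(sl2 k)))
      (fun a b hab => (Prod.mk.inj hab).1)
  refine ⟨hfinT, ?_⟩
  rw [← Nat.card_prod]
  exact Nat.card_le_card_of_injective F hF

end Fermat.Agent.S56
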