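import Mathlib

/-!
# S56 / Gen / Alg : few maps to `k[ε]` killing `J`  ⟹  `ker π = J + (x_1..x_g) + ...`      (Mathlib only)

`Λ → k` a surjection of a commutative ring onto a finite field (`Λ = k`, or `Λ = 𝒪`, `k = 𝒪/λ`), `A` a `Λ`-algebra, `π : A →ₐ[Λ] k`,
`m = ker π`, `J ≤ m` an ideal.  `TanSet π J` : the `Λ`-algebra maps `φ : A → k[ε]` with `fst ∘ φ = π`, `φ J = 0`.
* `exists_gens_of_card_le` : `TanSet` finite with `≤ #k^g` elements ⟹ `m ≤ J + (x_1..x_g) + m² + n A`, `n = ker (Λ → k)`.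
* `ker_le_of_pow_le`, `ker_le_of_fg` : Nakayama (`m` nilpotent modulo the right hand side, resp. `m` finitely generated and contained in the radical).
-/

set_option autoImplicit false

namespace Fermat.Agent.S56.Gen

variable {Λ k A : Type} [CommRing Λ] [Field k] [Algebra Λ k] [CommRing A] [Algebra Λ A]

/-- a `Λ`-algebra map to `k[ε]` from a `Λ`-algebra map `π` to `k` and a "`π`-derivation". -/
noncomputable def dualHomG (hΛ : Function.Surjective (algebraMap Λ k)) (π : A →ₐ[Λ] k)
    (l : A →ₗ[Λ] k) (h1 : l 1 = 0) (h2 : ∀ u u', π u = 0 → π u' = 0 → l (u * u') = 0) :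
    A →ₐ[Λ] DualNumber k :=
  have hmul : ∀ y y', l (y * y') = π y * l y' + π y' * l y := by
    intro y y'
    obtain ⟨c, hc⟩ := hΛ (π y)
    obtain ⟨c', hc'⟩ := hΛ (π y')
    have hπ : ∀ (z : A) (e : Λ), algebraMap Λ k e = π z → π (z - e • 1) = 0 := by
      intro z e he
      rw [map_sub, map_smul, map_one, Algebra.smul_def, mul_one, ← he, sub_self]
    have h3 := h2 _ _ (hπ y c hc) (hπ y' c' hc')
    have h4 : (y - c • 1) * (y' - c' • 1) = y * y' - c' • y - c • y' + (c * c') • (1 : A) := by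
      simp only [Algebra.smul_def, mul_one, map_mul]
      ring
    rw [h4, map_add, map_sub, map_sub, map_smul, map_smul, map_smul, h1, smul_zero, add_zero,
      Algebra.smul_def, Algebra.smul_def, hc, hc'] at h3
    linear_combination h3
  { toFun := fun y => TrivSqZeroExt.inl (π y) + TrivSqZeroExt.inr (l y)
    map_one' := by
      rw [map_one, h1]
      simp
    map_mul' := by
      intro y y'
      apply TrivSqZeroExt.ext
      · simp
      · simp [hmul, mul_comm]
    map_zero' := by simp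
    map_add' := by
      intro y y'
      apply TrivSqZeroExt.ext
      · simp
      · simp
    commutes' := by
      intro c
      have h3 : l (algebraMap Λ A c) = 0 := by
        rw [Algebra.algebraMap_eq_smul_one, map_smul, h1, smul_zero]
      rw [h3, AlgHom.commutes]
      simp
      rfl }

@[simp] theorem fst_dualHomG (hΛ : Function.Surjective (algebraMap Λ k)) (π : A →ₐ[Λ] k)
    (l : A →ₗ[Λ] k) (h1 : l 1 = 0) (h2 : ∀ u u', π u = 0 → π u' = 0 → l (u * u') = 0) (y : A) :
    (dualHomG hΛ π l h1 h2 y).fst = π y := by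
  show (TrivSqZeroExt.inl (π y) + TrivSqZeroExt.inr (l y) : DualNumber k).fst = _
  simp

@[simp] theorem snd_dualHomG (hΛ : Function.Surjective (algebraMap Λ k)) (π : A →ₐ[Λ] k)
    (l : A →ₗ[Λ] k) (h1 : l 1 = 0) (h2 : ∀ u u', π u = 0 → π u' = 0 → l (u * u') = 0) (y : A) :
    (dualHomG hΛ π l h1 h2 y).snd = l y := by
  show (TrivSqZeroExt.inl (π y) + TrivSqZeroExt.inr (l y) : DualNumber k).snd = _
  simp

/-- the tangent vectors of `A/J` at `π`. -/
def TanSet (π : A →ₐ[Λ] k) (J : Ideal A) : Set (A →ₐ[Λ] DualNumber k) :=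
  {φ | (∀ a, (φ a).fst = π a) ∧ ∀ a ∈ J, φ a = 0}

/-- **[GEN-ALG]** -/
theorem exists_gens_of_card_le [Finite k] (hΛ : Function.Surjective (algebraMap Λ k))
    (π : A →ₐ[Λ] k) (J : Ideal A) (hJ : ∀ a ∈ J, π a = 0) (g : ℕ) (hfin : (TanSet π J).Finite)
    (hcard : Nat.card ↥(TanSet π J) ≤ Nat.card k ^ g) :
    ∃ x : Fin g → A, (∀ i, π (x i) = 0) ∧
      RingHom.ker (π : A →+* k) ≤ J ⊔ Ideal.span (Set.range x) ⊔ RingHom.ker (π : A →+* k) ^ 2 ⊔
        (RingHom.ker (algebraMap Λ k)).map (algebraMap Λ A) := by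
  classical
  set m : Ideal A := RingHom.ker (π : A →+* k) with hm
  have hmem : ∀ y, y ∈ m ↔ π y = 0 := fun y => Iff.rfl
  set J' : Ideal A := J ⊔ m ^ 2 ⊔ (RingHom.ker (algebraMap Λ k)).map (algebraMap Λ A) with hJ'
  have hJm : J' ≤ m := by
    refine sup_le (sup_le (fun a ha => hJ a ha) (Ideal.pow_le_self two_ne_zero)) ?_
    rw [Ideal.map_le_iff_le_comap]
    intro c hc
    show π (algebraMap Λ A c) = 0
    rw [AlgHom.commutes]
    exact hc
  -- the `k`-algebra structure on `T = A ⧸ J'`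
  let ψ : k →+* A ⧸ J' := (algebraMap Λ k).liftOfSurjective hΛ ⟨algebraMap Λ (A ⧸ J'), by
    intro c hc
    show Ideal.Quotient.mk J' (algebraMap Λ A c) = 0
    exact Ideal.Quotient.eq_zero_iff_mem.2 (Ideal.mem_sup_right (Ideal.mem_map_of_mem _ hc))⟩
  have hψ : ∀ c : Λ, ψ (algebraMap Λ k c) = Ideal.Quotient.mk J' (algebraMap Λ A c) := fun c =>
    RingHom.liftOfSurjective_comp_apply _ hΛ _ c
  let _ : Algebra k (A ⧸ J') := ψ.toAlgebra
  have : IsScalarTower Λ k (A ⧸ J') := IsScalarTower.of_algebraMap_eq (fun c => (hψ c).symm)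
  let πb : A ⧸ J' →ₐ[k] k :=
    { Ideal.Quotient.lift J' (π : A →+* k) (fun a ha => hJm ha) with
      commutes' := fun z => by
        obtain ⟨c, rfl⟩ := hΛ z
        show Ideal.Quotient.lift J' (π : A →+* k) _ (ψ (algebraMap Λ k c)) = _
        rw [hψ]
        exact π.commutes c }
  have hπb : ∀ y : A, πb (Ideal.Quotient.mk J' y) = π y := fun y => rfl
  let V : Submodule k (A ⧸ J') := LinearMap.ker πb.toLinearMap
  let proj : (A ⧸ J') →ₗ[k] V :=
    LinearMap.codRestrict V
      (LinearMap.id - (LinearMap.toSpanSingleton k (A ⧸ J') 1) ∘ₗ πb.toLinearMap)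
      (fun t => by
        rw [LinearMap.mem_ker]
        simp)
  have hproj : ∀ t : V, proj (t : A ⧸ J') = t := by
    intro t
    apply Subtype.ext
    have : πb (t : A ⧸ J') = 0 := t.2
    simp [proj, this]
  have hproj1 : proj 1 = 0 := by
    apply Subtype.ext
    simp [proj]
  -- functionals give tangent vectors
  let l' : Module.Dual k V → (A →ₗ[Λ] k) := fun l =>
    ((l ∘ₗ proj).restrictScalars Λ) ∘ₗ (Ideal.Quotient.mkₐ Λ J').toLinearMap
  have hl' : ∀ l y, l' l y = l (proj (Ideal.Quotient.mk J' y)) := fun l y => rfl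
  have h1 : ∀ l, l' l 1 = 0 := fun l => by rw [hl', map_one, hproj1, map_zero]
  have h2 : ∀ l u u', π u = 0 → π u' = 0 → l' l (u * u') = 0 := by
    intro l u u' hu hu'
    have h3 : u * u' ∈ J' := by
      apply Ideal.mem_sup_left
      apply Ideal.mem_sup_right
      rw [pow_two]
      exact Ideal.mul_mem_mul hu hu'
    rw [hl', Ideal.Quotient.eq_zero_iff_mem.2 h3, map_zero, map_zero]
  let F : Module.Dual k V → ↥(TanSet π J) := fun l =>
    ⟨dualHomG hΛ π (l' l) (h1 l) (h2 l), fun a => fst_dualHomG _ _ _ _ _ a, fun a ha => by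
      apply TrivSqZeroExt.ext
      · rw [fst_dualHomG, hJ a ha]; rfl
      · rw [snd_dualHomG, hl', Ideal.Quotient.eq_zero_iff_mem.2
          (Ideal.mem_sup_left (Ideal.mem_sup_left ha)), map_zero, map_zero]; rfl⟩
  have hF : Function.Injective F := by
    intro l l₂ hll
    apply LinearMap.ext
    intro v
    obtain ⟨y, hy⟩ := Ideal.Quotient.mk_surjective (v : A ⧸ J')
    have h3 := congrArg (fun φ : ↥(TanSet π J) => ((φ : A →ₐ[Λ] DualNumber k) y).snd) hll
    simp only [F, snd_dualHomG, hl', hy, hproj] at h3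
    exact h3
  have hfinT : Finite ↥(TanSet π J) := hfin
  have hfinD : Finite (Module.Dual k V) := Finite.of_injective F hF
  have hfinD' : Module.Finite k (Module.Dual k V) := Module.Finite.of_finite
  have hfinV : Module.Finite k V := (Module.finite_dual_iff k).1 hfinD'
  have hd : Module.finrank k V ≤ g := by
    have h3 := (Nat.card_le_card_of_injective F hF).trans hcard
    rw [Module.natCard_eq_pow_finrank (K := k), Subspace.dual_finrank_eq] at h3
    exact (Nat.pow_le_pow_iff_right Finite.one_lt_card).1 h3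
  let bb := Module.finBasis k V
  choose x₀ hx₀ using fun i => Ideal.Quotient.mk_surjective ((bb i : V) : A ⧸ J')
  have hx₀m : ∀ i, π (x₀ i) = 0 := by
    intro i
    rw [← hπb, hx₀]
    exact (bb i).2
  refine ⟨fun i => if h : (i : ℕ) < Module.finrank k V then x₀ ⟨i, h⟩ else 0, fun i => ?_, ?_⟩
  · dsimp only
    split_ifs
    · exact hx₀m _
    · exact map_zero _
  · intro y hy
    have hyV : Ideal.Quotient.mk J' y ∈ V := hy
    have h3 := bb.sum_repr ⟨_, hyV⟩
    choose c' hc' using fun i => hΛ (bb.repr ⟨_, hyV⟩ i)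
    have h4 : Ideal.Quotient.mk J' (∑ i, algebraMap Λ A (c' i) * x₀ i) = Ideal.Quotient.mk J' y := by
      have h5 := congrArg (fun v : V => (v : A ⧸ J')) h3
      simp only [AddSubmonoidClass.coe_finsetSum, Submodule.coe_smul] at h5
      rw [← h5, map_sum]
      refine Finset.sum_congr rfl fun i _ => ?_
      rw [map_mul, hx₀, ← hc' i, Algebra.smul_def]
      congr 1
      exact (hψ _).symm
    have h5 : y - ∑ i, algebraMap Λ A (c' i) * x₀ i ∈ J' := by
      rw [← Ideal.Quotient.eq, h4]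
    set X : Ideal A := Ideal.span (Set.range fun i : Fin g =>
      if h : (i : ℕ) < Module.finrank k V then x₀ ⟨i, h⟩ else 0) with hX
    have h6 : ∑ i, algebraMap Λ A (c' i) * x₀ i ∈ X :=
      Ideal.sum_mem _ fun i _ => Ideal.mul_mem_left _ _
        (Ideal.subset_span ⟨⟨i, i.2.trans_le hd⟩, by simp⟩)
    have h7 := (X ⊔ J').add_mem (Ideal.mem_sup_left h6) (Ideal.mem_sup_right h5)
    rw [add_sub_cancel] at h7
    have h8 : X ⊔ J' ≤ J ⊔ X ⊔ m ^ 2 ⊔ (RingHom.ker (algebraMap Λ k)).map (algebraMap Λ A) := by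
      rw [hJ']
      refine sup_le ?_ (sup_le (sup_le ?_ ?_) le_sup_right)
      · exact le_sup_of_le_left (le_sup_of_le_left le_sup_right)
      · exact le_sup_of_le_left (le_sup_of_le_left le_sup_left)
      · exact le_sup_of_le_left le_sup_right
    exact h8 h7

/-- Nakayama, nilpotent form. -/
theorem le_of_le_sup_sq_of_pow_le {m I : Ideal A} (h : m ≤ I ⊔ m ^ 2) {N : ℕ} (hN : m ^ N ≤ I) :
    m ≤ I := by
  have key : ∀ n : ℕ, m ≤ I ⊔ m ^ (n + 1) := by
    intro n
    induction n with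
    | zero => rw [zero_add, pow_one]; exact le_sup_right
    | succ n ih =>
      refine h.trans (sup_le le_sup_left ?_)
      calc m ^ 2 = m * m := pow_two m
        _ ≤ (I ⊔ m ^ (n + 1)) * m := Ideal.mul_mono_left ih
        _ = I * m ⊔ m ^ (n + 1) * m := Ideal.sup_mul _ _ _
        _ ≤ I ⊔ m ^ (n + 1 + 1) := sup_le_sup Ideal.mul_le_left (le_of_eq (pow_succ m (n + 1)).symm)
  refine (key N).trans (sup_le le_rfl ?_)
  exact (Ideal.pow_le_pow_right (Nat.le_succ N)).trans hN

/-- Nakayama, finitely generated form. -/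
theorem le_of_le_sup_sq_of_fg {m I : Ideal A} (h : m ≤ I ⊔ m ^ 2) (hfg : m.FG)
    (hrad : m ≤ Ideal.jacobson ⊥) : m ≤ I := by
  refine Submodule.le_of_le_smul_of_le_jacobson_bot hfg hrad ?_
  rwa [smul_eq_mul, ← pow_two]

end Fermat.Agent.S56.Gen
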